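/-
S25lib / Hub / Fibre  (helper7)  --  Project L (S25): the cut `InP` through the geometric fibres.
For a geometric point `s : Spec K ⟶ T` the fibre of `C ×_k T` is `C ×_k Spec K = pullback c (s ≫ t)` and the
restriction of `M` is `(M.pullbackAlong ⟨s, rfl⟩).L`:
* `isAlgEquivZero_fibre_iff`: the condition of `FibrewiseAlgEquivZero` at `s` in this normal form;
* `inP_iff_fibres`;
* `inP_of_fibres`: a bundle all of whose geometric fibres are geometric fibres of bundles of the cut is in the cut.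
-/
import Fermat.Agent.S25lib.Iface
import Fermat.Agent.S25lib.Glue.RLB

set_option autoImplicit false

noncomputable section

universe u

open AlgebraicGeometry CategoryTheory CategoryTheory.Limits AlgebraicGeometry.RelPicard
  NeronModelInfra GoodReductionJacobian

namespace Fermat.Agent.S25lib.Hub

variable {k : Type u} [Field k] {C : Scheme.{u}} {c : C ⟶ Spec (CommRingCat.of k)}
  {ε : SchemeHomOver (𝟙 (Spec (CommRingCat.of k))) c}

/-- the condition of the cut at a geometric point, in normal form -/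
def FibreAEZ {T : Scheme.{u}} {t : T ⟶ Spec (CommRingCat.of k)} (M : RLB c ε t)
    {K : Type u} [Field K] (s : Spec (CommRingCat.of K) ⟶ T) : Prop :=
  IsAlgEquivZero (pullback.snd c (s ≫ t))
    (M.pullbackAlong (⟨s, rfl⟩ : SchemeHomOver (s ≫ t) t)).L

theorem isAlgEquivZero_fibre_iff {T : Scheme.{u}} {t : T ⟶ Spec (CommRingCat.of k)}
    (M : RLB c ε t) {K : Type u} [Field K] (s : Spec (CommRingCat.of K) ⟶ T) :
    IsAlgEquivZero (fibreAt c t s)
      ((Scheme.Modules.pullback (pullback.fst (pullback.snd c t) s)).obj M.L) ↔ FibreAEZ M s := by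
  let ψ : SchemeHomOver (s ≫ t) t := ⟨s, rfl⟩
  have hcond : baseChangeSnd c ψ ≫ pullback.snd c t = pullback.snd c (s ≫ t) ≫ s := by
    unfold baseChangeSnd
    rw [pullback.lift_snd]
  let e : pullback c (s ≫ t) ⟶ pullback (pullback.snd c t) s :=
    pullback.lift (baseChangeSnd c ψ) (pullback.snd c (s ≫ t)) hcond
  have he : e ≫ fibreAt c t s = pullback.snd c (s ≫ t) := pullback.lift_snd _ _ _
  have he1 : e ≫ pullback.fst (pullback.snd c t) s = baseChangeSnd c ψ := pullback.lift_fst _ _ _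
  have hcond' : (pullback.fst (pullback.snd c t) s ≫ pullback.fst c t) ≫ c =
      fibreAt c t s ≫ (s ≫ t) := by
    unfold fibreAt
    rw [Category.assoc, pullback.condition, ← Category.assoc, pullback.condition, Category.assoc]
  let e' : pullback (pullback.snd c t) s ⟶ pullback c (s ≫ t) :=
    pullback.lift (pullback.fst (pullback.snd c t) s ≫ pullback.fst c t) (fibreAt c t s) hcond'
  have he' : e' ≫ pullback.snd c (s ≫ t) = fibreAt c t s := pullback.lift_snd _ _ _
  have he1' : e' ≫ baseChangeSnd c ψ = pullback.fst (pullback.snd c t) s := by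
    apply pullback.hom_ext
    · unfold baseChangeSnd
      rw [Category.assoc, pullback.lift_fst, ← Category.assoc, pullback.lift_fst, Category.comp_id]
    · rw [Category.assoc, hcond, ← Category.assoc, he']
      exact pullback.condition.symm
  constructor
  · intro h
    refine (IsAlgEquivZero.pullback e he h).of_iso ?_
    exact (Scheme.Modules.pullbackComp _ _).app M.L ≪≫ (Scheme.Modules.pullbackCongr he1).app M.L
  · intro h
    refine (IsAlgEquivZero.pullback e' he' h).of_iso ?_
    exact (Scheme.Modules.pullbackComp _ _).app M.L ≪≫ (Scheme.Modules.pullbackCongr he1').app M.L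

/-- **the cut, through the geometric fibres in normal form** -/
theorem inP_iff_fibres {T : Scheme.{u}} {t : T ⟶ Spec (CommRingCat.of k)} (M : RLB c ε t) :
    InP M ↔ ∀ (K : Type u) [Field K] [IsAlgClosed K] (s : Spec (CommRingCat.of K) ⟶ T),
      FibreAEZ M s := by
  constructor
  · intro h K _ _ s
    exact (isAlgEquivZero_fibre_iff M s).mp (h K s)
  · intro h K _ _ s
    exact (isAlgEquivZero_fibre_iff M s).mpr (h K s)

/-- the condition at a geometric point only depends on the class of the fibre -/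
theorem FibreAEZ.congr {T T₁ : Scheme.{u}} {t : T ⟶ Spec (CommRingCat.of k)}
    {t₁ : T₁ ⟶ Spec (CommRingCat.of k)} {M : RLB c ε t} {M₁ : RLB c ε t₁}
    {K : Type u} [Field K] {s : Spec (CommRingCat.of K) ⟶ T} {s₁ : Spec (CommRingCat.of K) ⟶ T₁}
    (hs : s₁ ≫ t₁ = s ≫ t)
    (h : RLB.Iso (M₁.pullbackAlong (⟨s₁, hs⟩ : SchemeHomOver (s ≫ t) t₁))
      (M.pullbackAlong (⟨s, rfl⟩ : SchemeHomOver (s ≫ t) t))) (h₁ : FibreAEZ M₁ s₁) :
    FibreAEZ M s := by
  unfold FibreAEZ at h₁ ⊢
  obtain ⟨e⟩ := h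
  refine IsAlgEquivZero.of_iso e ?_
  -- transport along `s₁ ≫ t₁ = s ≫ t`
  have key : ∀ (y : Spec (CommRingCat.of K) ⟶ Spec (CommRingCat.of k)) (hy : s₁ ≫ t₁ = y),
      IsAlgEquivZero (pullback.snd c y) (M₁.pullbackAlong (⟨s₁, hy⟩ : SchemeHomOver y t₁)).L := by
    intro y hy
    subst hy
    exact h₁
  exact key (s ≫ t) hs

/-- **a bundle whose geometric fibres are geometric fibres of bundles of the cut is in the cut** -/
theorem inP_of_fibres {T : Scheme.{u}} {t : T ⟶ Spec (CommRingCat.of k)} (M : RLB c ε t)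
    (h : ∀ (K : Type u) [Field K] [IsAlgClosed K] (s : Spec (CommRingCat.of K) ⟶ T),
      ∃ (T₁ : Scheme.{u}) (t₁ : T₁ ⟶ Spec (CommRingCat.of k)) (M₁ : RLB c ε t₁) (_ : InP M₁)
        (s₁ : Spec (CommRingCat.of K) ⟶ T₁) (hs : s₁ ≫ t₁ = s ≫ t),
        RLB.Iso (M₁.pullbackAlong (⟨s₁, hs⟩ : SchemeHomOver (s ≫ t) t₁))
          (M.pullbackAlong (⟨s, rfl⟩ : SchemeHomOver (s ≫ t) t))) : InP M := by
  rw [inP_iff_fibres]
  intro K _ _ s
  obtain ⟨T₁, t₁, M₁, hM₁, s₁, hs, hiso⟩ := h K s
  exact FibreAEZ.congr hs hiso ((inP_iff_fibres M₁).mp hM₁ K s₁)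

end Fermat.Agent.S25lib.Hub
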