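/-
S25lib / Hub / TwistRLB  (helper7)  --  Project L (S25): the twist of a rigidified line bundle on `C ×_k T` by
(the pullback of) a cocycle on `C` which is trivial near the base point.
* `RLB.twistBy 𝒞 k₀ h M`: `L := (𝒞.pull pr₁).twist M.L`;
* `twistBy_congr`, `twistBy_inv_twistBy`, `twistBy_twistBy_inv`, `twistBy_pullbackAlong`.
-/
import Fermat.Agent.S25lib.Iface
import Fermat.Agent.S25lib.Mod.TwoOpen
import Fermat.Agent.S25lib.Glue.RLB

set_option autoImplicit false

noncomputable section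

universe u

open AlgebraicGeometry CategoryTheory CategoryTheory.Limits AlgebraicGeometry.RelPicard
  NeronModelInfra GoodReductionJacobian

namespace Fermat.Agent.S25lib.Hub

variable {k : Type u} [Field k] {C : Scheme.{u}} {c : C ⟶ Spec (CommRingCat.of k)}
  {ε : SchemeHomOver (𝟙 (Spec (CommRingCat.of k))) c}

/-- a cocycle on `C` with a distinguished index whose open contains the base point -/
structure BasedCocycle (c : C ⟶ Spec (CommRingCat.of k))
    (ε : SchemeHomOver (𝟙 (Spec (CommRingCat.of k))) c) (ι : Type u) where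
  coc : Mod.Cocycle C ι
  k₀ : ι
  mem : ∀ y : Spec (CommRingCat.of k), ε.1.base y ∈ coc.U k₀

namespace BasedCocycle

variable {ι : Type u} (𝒞 : BasedCocycle c ε ι)

/-- the inverse based cocycle -/
def inv : BasedCocycle c ε ι where
  coc := 𝒞.coc.inv
  k₀ := 𝒞.k₀
  mem := 𝒞.mem

/-- the cocycle pulled back to `C ×_k T` -/
def onProd {T : Scheme.{u}} (t : T ⟶ Spec (CommRingCat.of k)) : Mod.Cocycle (pullback c t) ι :=
  𝒞.coc.pull (pullback.fst c t)

theorem rig_preimage_eq_top {T : Scheme.{u}} (t : T ⟶ Spec (CommRingCat.of k)) :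
    ((𝒞.onProd t).pull (rigSection c t ε)).U 𝒞.k₀ = ⊤ := by
  rw [eq_top_iff]
  intro x _
  show (pullback.fst c t).base ((rigSection c t ε).base x) ∈ 𝒞.coc.U 𝒞.k₀
  have h1 : rigSection c t ε ≫ pullback.fst c t = t ≫ ε.1 := by
    unfold rigSection
    rw [pullback.lift_fst]
  have h2 : (pullback.fst c t).base ((rigSection c t ε).base x) = ε.1.base (t.base x) := by
    have := congrArg (fun f => f.base x) h1
    simpa using this
  rw [h2]
  exact 𝒞.mem _

theorem inv_onProd {T : Scheme.{u}} (t : T ⟶ Spec (CommRingCat.of k)) :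
    𝒞.inv.onProd t = (𝒞.onProd t).inv :=
  Mod.Cocycle.pull_inv (pullback.fst c t) 𝒞.coc

end BasedCocycle

/-- **the twist of a rigidified line bundle** -/
def twistBy {ι : Type u} (𝒞 : BasedCocycle c ε ι) {T : Scheme.{u}}
    {t : T ⟶ Spec (CommRingCat.of k)} (M : RLB c ε t) : RLB c ε t where
  L := (𝒞.onProd t).twist M.L
  isInvertible := (Mod.isInvertible_iff_exists_isGen _).mpr
    (Mod.LocGen.twist _ (Mod.locGen_of_isInvertible M.isInvertible))
  rigidified := by
    have hM := Mod.locGen_of_isInvertible M.isInvertible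
    obtain ⟨e1⟩ := Mod.Cocycle.nonempty_pullback_twist_iso (rigSection c t ε) (𝒞.onProd t) hM
    obtain ⟨e2⟩ := Mod.Cocycle.nonempty_twist_iso_of_top ((𝒞.onProd t).pull (rigSection c t ε))
      (hM.pullback (rigSection c t ε)) 𝒞.k₀ (𝒞.rig_preimage_eq_top t)
    obtain ⟨e3⟩ := M.rigidified
    exact ⟨e1 ≪≫ e2 ≪≫ e3⟩

theorem twistBy_L {ι : Type u} (𝒞 : BasedCocycle c ε ι) {T : Scheme.{u}}
    {t : T ⟶ Spec (CommRingCat.of k)} (M : RLB c ε t) :
    (twistBy 𝒞 M).L = (𝒞.onProd t).twist M.L := rfl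

/-- the twist respects isomorphisms -/
theorem twistBy_congr {ι : Type u} (𝒞 : BasedCocycle c ε ι) {T : Scheme.{u}}
    {t : T ⟶ Spec (CommRingCat.of k)} {M M' : RLB c ε t} (h : RLB.Iso M M') :
    RLB.Iso (twistBy 𝒞 M) (twistBy 𝒞 M') := by
  obtain ⟨e⟩ := h
  exact ⟨(𝒞.onProd t).twistIso e⟩

/-- twisting by `𝒞` and then by `𝒞.inv` gives back the bundle -/
theorem twistBy_inv_twistBy {ι : Type u} (𝒞 : BasedCocycle c ε ι) {T : Scheme.{u}}
    {t : T ⟶ Spec (CommRingCat.of k)} (M : RLB c ε t) :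
    RLB.Iso (twistBy 𝒞.inv (twistBy 𝒞 M)) M := by
  have hM := Mod.locGen_of_isInvertible M.isInvertible
  show Nonempty ((𝒞.inv.onProd t).twist ((𝒞.onProd t).twist M.L) ≅ M.L)
  rw [𝒞.inv_onProd t]
  exact (𝒞.onProd t).nonempty_iso_inv_twist_twist hM

/-- twisting by `𝒞.inv` and then by `𝒞` gives back the bundle -/
theorem twistBy_twistBy_inv {ι : Type u} (𝒞 : BasedCocycle c ε ι) {T : Scheme.{u}}
    {t : T ⟶ Spec (CommRingCat.of k)} (M : RLB c ε t) :
    RLB.Iso (twistBy 𝒞 (twistBy 𝒞.inv M)) M := by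
  have hM := Mod.locGen_of_isInvertible M.isInvertible
  show Nonempty ((𝒞.onProd t).twist ((𝒞.inv.onProd t).twist M.L) ≅ M.L)
  rw [𝒞.inv_onProd t]
  exact (𝒞.onProd t).nonempty_iso_twist_inv_twist hM

theorem BasedCocycle.onProd_pull {ι : Type u} (𝒞 : BasedCocycle c ε ι) {T T' : Scheme.{u}}
    {t : T ⟶ Spec (CommRingCat.of k)} {t' : T' ⟶ Spec (CommRingCat.of k)}
    (ψ : SchemeHomOver t' t) : (𝒞.onProd t).pull (baseChangeSnd c ψ) = 𝒞.onProd t' := by
  unfold BasedCocycle.onProd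
  rw [Mod.Cocycle.pull_pull]
  apply Mod.Cocycle.pull_congr
  unfold baseChangeSnd
  rw [pullback.lift_fst, Category.comp_id]

/-- **the twist commutes with pullback along the base** -/
theorem twistBy_pullbackAlong {ι : Type u} (𝒞 : BasedCocycle c ε ι) {T T' : Scheme.{u}}
    {t : T ⟶ Spec (CommRingCat.of k)} {t' : T' ⟶ Spec (CommRingCat.of k)}
    (ψ : SchemeHomOver t' t) (M : RLB c ε t) :
    RLB.Iso ((twistBy 𝒞 M).pullbackAlong ψ) (twistBy 𝒞 (M.pullbackAlong ψ)) := by
  have hM := Mod.locGen_of_isInvertible M.isInvertible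
  have h := Mod.Cocycle.nonempty_pullback_twist_iso (baseChangeSnd c ψ) (𝒞.onProd t) hM
  rw [𝒞.onProd_pull ψ] at h
  exact h

end Fermat.Agent.S25lib.Hub
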