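/-
S25lib / Hub / OPoint  (helper7)  --  Project L (S25): the cocycle of `O(P)` for a point `P` with a `PointChart`,
and the twist `M ↦ M(E)` of rigidified bundles by a list of such cocycles.
-/
import Fermat.Agent.S25lib.Hub.TwistRLB
import Fermat.Agent.S25lib.Curve.ChartApi

set_option autoImplicit false

noncomputable section

universe u

open AlgebraicGeometry CategoryTheory CategoryTheory.Limits AlgebraicGeometry.RelPicard
  NeronModelInfra GoodReductionJacobian

namespace Fermat.Agent.S25lib.Hub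

variable {k : Type u} [Field k] {C : Scheme.{u}} {c : C ⟶ Spec (CommRingCat.of k)}
  {ε : SchemeHomOver (𝟙 (Spec (CommRingCat.of k))) c}

/-- **the cocycle of `O(P)`**: `gen ⟨false⟩ = 1` on `C ∖ P`, `gen ⟨true⟩ = z⁻¹` on `U₂`, `gen ⟨false⟩ = z • gen ⟨true⟩` -/
def opCocycle {P : C} (T : Curve.PointChart c P) : Mod.Cocycle C (ULift.{u} Bool) :=
  Mod.Cocycle.ofUnit T.sup_eq
    (Mod.resO (inf_le_right : T.U₁ ⊓ T.U₂ ≤ T.U₂) T.z) (↑(T.isUnit_res_z.unit⁻¹))
    (by
      have h : Mod.resO (inf_le_right : T.U₁ ⊓ T.U₂ ≤ T.U₂) T.z = ↑T.isUnit_res_z.unit := rfl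
      rw [h, Units.mul_inv])

/-- the based cocycle of `O(P)`, `P` not the base point -/
def opBased {P : C} (T : Curve.PointChart c P) (hP : ∀ y : Spec (CommRingCat.of k), ε.1.base y ≠ P) :
    BasedCocycle c ε (ULift.{u} Bool) where
  coc := opCocycle T
  k₀ := ⟨false⟩
  mem y := (T.mem₁_iff _).mpr (hP y)

/-- the iterated twist by a list of based cocycles -/
def twistByList {ι : Type u} (l : List (BasedCocycle c ε ι)) {T : Scheme.{u}}
    {t : T ⟶ Spec (CommRingCat.of k)} (M : RLB c ε t) : RLB c ε t :=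
  l.foldr (fun 𝒞 N => twistBy 𝒞 N) M

theorem twistByList_nil {ι : Type u} {T : Scheme.{u}}
    {t : T ⟶ Spec (CommRingCat.of k)} (M : RLB c ε t) :
    twistByList ([] : List (BasedCocycle c ε ι)) M = M := rfl

theorem twistByList_cons {ι : Type u} (𝒞 : BasedCocycle c ε ι) (l : List (BasedCocycle c ε ι))
    {T : Scheme.{u}} {t : T ⟶ Spec (CommRingCat.of k)} (M : RLB c ε t) :
    twistByList (𝒞 :: l) M = twistBy 𝒞 (twistByList l M) := rfl

theorem twistByList_congr {ι : Type u} (l : List (BasedCocycle c ε ι)) {T : Scheme.{u}}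
    {t : T ⟶ Spec (CommRingCat.of k)} {M M' : RLB c ε t} (h : RLB.Iso M M') :
    RLB.Iso (twistByList l M) (twistByList l M') := by
  induction l with
  | nil => exact h
  | cons 𝒞 l ih => exact twistBy_congr 𝒞 ih

/-- the list of the inverse cocycles, in the reverse order -/
def invList {ι : Type u} (l : List (BasedCocycle c ε ι)) : List (BasedCocycle c ε ι) :=
  (l.map BasedCocycle.inv).reverse

theorem twistByList_append {ι : Type u} (l l' : List (BasedCocycle c ε ι)) {T : Scheme.{u}}
    {t : T ⟶ Spec (CommRingCat.of k)} (M : RLB c ε t) :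
    twistByList (l ++ l') M = twistByList l (twistByList l' M) := by
  unfold twistByList
  rw [List.foldr_append]

/-- untwisting -/
theorem twistByList_invList {ι : Type u} (l : List (BasedCocycle c ε ι)) {T : Scheme.{u}}
    {t : T ⟶ Spec (CommRingCat.of k)} (M : RLB c ε t) :
    RLB.Iso (twistByList (invList l) (twistByList l M)) M := by
  induction l generalizing M with
  | nil => exact ⟨Iso.refl _⟩
  | cons 𝒞 l ih =>
    unfold invList
    rw [List.map_cons, List.reverse_cons, twistByList_append, twistByList_cons]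
    have h1 : RLB.Iso (twistByList [𝒞.inv] (twistBy 𝒞 (twistByList l M))) (twistByList l M) :=
      twistBy_inv_twistBy 𝒞 (twistByList l M)
    obtain ⟨e1⟩ := twistByList_congr ((l.map BasedCocycle.inv).reverse) h1
    obtain ⟨e2⟩ := ih M
    exact ⟨e1 ≪≫ e2⟩

/-- twisting back -/
theorem twistByList_twistByList_invList {ι : Type u} (l : List (BasedCocycle c ε ι))
    {T : Scheme.{u}} {t : T ⟶ Spec (CommRingCat.of k)} (M : RLB c ε t) :
    RLB.Iso (twistByList l (twistByList (invList l) M)) M := by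
  induction l generalizing M with
  | nil => exact ⟨Iso.refl _⟩
  | cons 𝒞 l ih =>
    unfold invList
    rw [List.map_cons, List.reverse_cons, twistByList_append, twistByList_cons]
    obtain ⟨e1⟩ := ih (twistByList [𝒞.inv] M)
    have h2 : RLB.Iso (twistBy 𝒞 (twistByList [𝒞.inv] M)) M := twistBy_twistBy_inv 𝒞 M
    obtain ⟨e2⟩ := h2
    obtain ⟨e3⟩ := twistBy_congr 𝒞 (⟨e1⟩ : RLB.Iso (twistByList l
      (twistByList (l.map BasedCocycle.inv).reverse (twistByList [𝒞.inv] M))) (twistByList [𝒞.inv] M))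
    exact ⟨e3 ≪≫ e2⟩

/-- the iterated twist commutes with pullback along the base -/
theorem twistByList_pullbackAlong {ι : Type u} (l : List (BasedCocycle c ε ι)) {T T' : Scheme.{u}}
    {t : T ⟶ Spec (CommRingCat.of k)} {t' : T' ⟶ Spec (CommRingCat.of k)}
    (ψ : SchemeHomOver t' t) (M : RLB c ε t) :
    RLB.Iso ((twistByList l M).pullbackAlong ψ) (twistByList l (M.pullbackAlong ψ)) := by
  induction l with
  | nil => exact ⟨Iso.refl _⟩
  | cons 𝒞 l ih =>
    obtain ⟨e1⟩ := twistBy_pullbackAlong 𝒞 ψ (twistByList l M)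
    obtain ⟨e2⟩ := twistBy_congr 𝒞 ih
    exact ⟨e1 ≪≫ e2⟩

end Fermat.Agent.S25lib.Hub
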