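/-
S25lib / Hub / Index  (helper7)  --  Project L (S25): the concrete index of the point configurations.
`PtData c ε` = a `k`-point `pt ≠ ε` of `C` with a `PointChart` at it; `EIdx c ε g` = lists of `g` such points;
`EIdx.E i` = the list of the based cocycles of the `O(pt)`, so that `M(E) = twistByList (EIdx.E i) M`.
-/
import Fermat.Agent.S25lib.Hub.OPoint

set_option autoImplicit false

noncomputable section

universe u

open AlgebraicGeometry CategoryTheory CategoryTheory.Limits AlgebraicGeometry.RelPicard
  NeronModelInfra GoodReductionJacobian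

namespace Fermat.Agent.S25lib.Hub

open Fermat.Agent.S26lib

variable {k : Type u} [Field k] {C : Scheme.{u}} (c : C ⟶ Spec (CommRingCat.of k))
  (ε : SchemeHomOver (𝟙 (Spec (CommRingCat.of k))) c)

/-- a `k`-point of `C` different from the base point, with a two-chart atlas adapted to it -/
structure PtData where
  pt : Prod.KPt c
  chart : Curve.PointChart c pt.pt
  ne : ∀ y : Spec (CommRingCat.of k), ε.1.base y ≠ pt.pt

variable {c ε}

/-- the based cocycle of `O(pt)` -/
def PtData.based (p : PtData c ε) : BasedCocycle c ε (ULift.{u} Bool) := opBased p.chart p.ne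

variable (c ε)

/-- the configurations of `g` points -/
def EIdx (g : ℕ) : Type u := {l : List (PtData c ε) // l.length = g}

variable {c ε}

/-- the list of the based cocycles of a configuration -/
def EIdx.E {g : ℕ} (i : EIdx c ε g) : List (BasedCocycle c ε (ULift.{u} Bool)) :=
  i.1.map PtData.based

/-- the list of the points of a configuration -/
def EIdx.pts {g : ℕ} (i : EIdx c ε g) : List (Prod.KPt c) := i.1.map PtData.pt

/-- the twist `M ↦ M(E)` -/
def twistE {g : ℕ} (i : EIdx c ε g) {T : Scheme.{u}} {t : T ⟶ Spec (CommRingCat.of k)}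
    (M : RLB c ε t) : RLB c ε t := twistByList i.E M

/-- the twist `M ↦ M(-E)` -/
def untwistE {g : ℕ} (i : EIdx c ε g) {T : Scheme.{u}} {t : T ⟶ Spec (CommRingCat.of k)}
    (M : RLB c ε t) : RLB c ε t := twistByList (invList i.E) M

end Fermat.Agent.S25lib.Hub
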