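/-
S25lib / Hub / HilbChart  (helper7)  --  Project L (S25): the framed Hilbert charts `Y β = Spec (H k β)` of the
curve `C ∖ e`, as `k`-schemes: affine, of finite type and smooth (helper1's `Ideal.smooth_H`, helper5's
`Hilb.H.finiteType`, helper8's inputs on `Γ(C, U₁)`).  The `k`-algebra structure on `Γ(C, U₁)` is
`(constHomOpen c U₁).hom.toAlgebra` (`algU₁`).
-/
import Fermat.Agent.S25lib.Hub.Index
import Fermat.Agent.S25lib.Ideal.Lift
import Fermat.Agent.S25lib.Hilb.SchemeSmooth
import Fermat.Agent.S25lib.Curve.ParamAlg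

set_option autoImplicit false

noncomputable section

universe u

open AlgebraicGeometry CategoryTheory CategoryTheory.Limits TensorProduct

namespace Fermat.Agent.S25lib.Hub

open Fermat.Agent.S26lib

variable {k : Type u} [Field k] {C : Scheme.{u}} (c : C ⟶ Spec (CommRingCat.of k))

/-- the `k`-algebra structure of the functions on an open of `C` -/
@[reducible] def algOpen (U : C.Opens) : Algebra k Γ(C, U) := (P5a.constHomOpen c U).hom.toAlgebra

section

variable {e : C} (T : Curve.PointChart c e) {g : ℕ}

/-- the framed chart of the Hilbert functor of `C ∖ e`, as a scheme -/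
def hilbY (β : Fin g → Γ(C, T.U₁)) : Scheme.{u} :=
  letI := algOpen c T.U₁
  Spec (CommRingCat.of (Hilb.H k β))

/-- its structure map -/
def hilby (β : Fin g → Γ(C, T.U₁)) : hilbY c T β ⟶ Spec (CommRingCat.of k) :=
  letI := algOpen c T.U₁
  Spec.map (CommRingCat.ofHom (algebraMap k (Hilb.H k β)))

theorem isAffine_hilbY (β : Fin g → Γ(C, T.U₁)) : IsAffine (hilbY c T β) := by
  unfold hilbY
  infer_instance

theorem finiteType_algOpen [LocallyOfFiniteType c] :
    letI := algOpen c T.U₁
    Algebra.FiniteType k Γ(C, T.U₁) := by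
  letI := algOpen c T.U₁
  have h := P5a.finiteType_constHomOpen c T.isAffineOpen₁
  exact h

theorem locallyOfFiniteType_Spec_algebraMap (H : Type u) [CommRing H] [Algebra k H]
    [Algebra.FiniteType k H] :
    LocallyOfFiniteType (Spec.map (CommRingCat.ofHom (algebraMap k H))) := by
  rw [HasRingHomProperty.Spec_iff (P := @LocallyOfFiniteType)]
  show (algebraMap k H).FiniteType
  exact RingHom.finiteType_algebraMap.mpr ‹Algebra.FiniteType k H›

theorem locallyOfFiniteType_hilby [LocallyOfFiniteType c] (β : Fin g → Γ(C, T.U₁)) :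
    LocallyOfFiniteType (hilby c T β) := by
  letI := algOpen c T.U₁
  haveI := finiteType_algOpen c T
  haveI : Algebra.FiniteType k (Hilb.H k β) := Hilb.H.finiteType k β
  exact locallyOfFiniteType_Spec_algebraMap (Hilb.H k β)

end

section Smooth

variable [IsAlgClosed k] [IsProper c] [SmoothOfRelativeDimension 1 c] [IsIntegral C]
  (ε' : Prod.KPt c) (T : Curve.PointChart c ε'.pt) {g : ℕ}

/-- **the framed charts are smooth** -/
theorem smooth_hilby (β : Fin g → Γ(C, T.U₁)) : Smooth (hilby c T β) := by
  letI := algOpen c T.U₁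
  haveI := finiteType_algOpen c T
  have hA : ¬ Module.Finite k Γ(C, T.U₁) := T.not_finite₁ c
  have hD : ∀ (K : Type u) [Field K] [Algebra k K], IsDedekindDomain (K ⊗[k] Γ(C, T.U₁)) :=
    fun K _ _ => T.isDedekindDomain_tensor₁ c ε' K
  haveI : Algebra.Smooth k (Hilb.H k β) := Ideal.smooth_H hA hD β
  exact Hilb.smooth_Spec_of_algebraSmooth k (Hilb.H k β)

end Smooth

end Fermat.Agent.S25lib.Hub
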