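/-
S25lib / Hub / ChartFormal  (helper7)  --  Project L (S25): the formal construction of an affine-local chart.
A `PreChart` is an affine `k`-scheme `Y` with a bundle `P` of the cut and a predicate `Q` on bundles which is
isomorphism invariant, open (`locusQ`), such that every bundle with `Q` over an affine base is a pullback of `P`
by a map which is unique among the maps `g` with `Q (g^* P)`.  Then the open subscheme `locusQ P ⊆ Y` with the
restriction of `P` is an `AffChart`.
-/
import Fermat.Agent.S25lib.Iface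
import Fermat.Agent.S25lib.Glue.RLB

set_option autoImplicit false

noncomputable section

universe u

open AlgebraicGeometry CategoryTheory CategoryTheory.Limits AlgebraicGeometry.RelPicard
  NeronModelInfra GoodReductionJacobian

namespace Fermat.Agent.S25lib.Hub

variable {k : Type u} [Field k] {C : Scheme.{u}} (c : C ⟶ Spec (CommRingCat.of k))
  (ε : SchemeHomOver (𝟙 (Spec (CommRingCat.of k))) c)

/-- the data from which an affine-local chart is cut out -/
structure PreChart where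
  Y : Scheme.{u}
  y : Y ⟶ Spec (CommRingCat.of k)
  isAffine : IsAffine Y
  finiteType : LocallyOfFiniteType y
  /-- the bundle over `Y` -/
  P : RLB c ε y
  P_mem : InP P
  /-- the predicate defining the chart -/
  Q : ∀ {T : Scheme.{u}} (t : T ⟶ Spec (CommRingCat.of k)), RLB c ε t → Prop
  Q_congr : ∀ {T : Scheme.{u}} (t : T ⟶ Spec (CommRingCat.of k)) (M M' : RLB c ε t),
    RLB.Iso M M' → Q t M → Q t M'
  locusQ : ∀ {T : Scheme.{u}} (_ : IsAffine T) (t : T ⟶ Spec (CommRingCat.of k)),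
    RLB c ε t → T.Opens
  locusQ_iff : ∀ {T T' : Scheme.{u}} (hT : IsAffine T) (_ : IsAffine T')
    (t : T ⟶ Spec (CommRingCat.of k)) (t' : T' ⟶ Spec (CommRingCat.of k))
    (ψ : SchemeHomOver t' t) (M : RLB c ε t), InP M →
    (Q t' (M.pullbackAlong ψ) ↔ Set.range ψ.1.base ⊆ (locusQ hT t M : Set T))
  exists_classify : ∀ {T : Scheme.{u}} (_ : IsAffine T) (t : T ⟶ Spec (CommRingCat.of k))
    (M : RLB c ε t), InP M → Q t M → ∃ g : SchemeHomOver t y, RLB.Iso (P.pullbackAlong g) M
  classify_unique : ∀ {T : Scheme.{u}} (_ : IsAffine T) (t : T ⟶ Spec (CommRingCat.of k))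
    (g g' : SchemeHomOver t y), Q t (P.pullbackAlong g) →
    RLB.Iso (P.pullbackAlong g) (P.pullbackAlong g') → g = g'

namespace PreChart

variable {c ε} (A : PreChart c ε)

/-- the open of `Y` over which `P` satisfies `Q` -/
def VO : A.Y.Opens := A.locusQ A.isAffine A.y A.P

/-- the inclusion of the chart, over `k` -/
def incl : SchemeHomOver (A.VO.ι ≫ A.y) A.y := ⟨A.VO.ι, rfl⟩

/-- the bundle of the chart -/
def univ : RLB c ε (A.VO.ι ≫ A.y) := A.P.pullbackAlong A.incl

/-- composition with the inclusion -/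
def push {T : Scheme.{u}} {t : T ⟶ Spec (CommRingCat.of k)} (g : SchemeHomOver t (A.VO.ι ≫ A.y)) :
    SchemeHomOver t A.y :=
  ⟨g.1 ≫ A.VO.ι, by rw [Category.assoc]; exact g.2⟩

theorem iso_push {T : Scheme.{u}} {t : T ⟶ Spec (CommRingCat.of k)}
    (g : SchemeHomOver t (A.VO.ι ≫ A.y)) :
    RLB.Iso (A.P.pullbackAlong (A.push g)) (A.univ.pullbackAlong g) :=
  ⟨Glue.pullbackAlongCompIso A.P A.incl g (A.push g) rfl⟩

theorem range_push {T : Scheme.{u}} {t : T ⟶ Spec (CommRingCat.of k)}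
    (g : SchemeHomOver t (A.VO.ι ≫ A.y)) :
    Set.range (A.push g).1.base ⊆ (A.VO : Set A.Y) := by
  rintro _ ⟨x, rfl⟩
  show (g.1 ≫ A.VO.ι).base x ∈ (A.VO : Set A.Y)
  rw [Scheme.Hom.comp_base]
  exact (g.1.base x).2

theorem Q_push {T : Scheme.{u}} (hT : IsAffine T) {t : T ⟶ Spec (CommRingCat.of k)}
    (g : SchemeHomOver t (A.VO.ι ≫ A.y)) : A.Q t (A.P.pullbackAlong (A.push g)) :=
  (A.locusQ_iff A.isAffine hT A.y t (A.push g) A.P A.P_mem).mpr (A.range_push g)

/-- a map to `Y` with range in the chart factors through it -/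
def lift {T : Scheme.{u}} {t : T ⟶ Spec (CommRingCat.of k)} (g : SchemeHomOver t A.y)
    (hg : Set.range g.1.base ⊆ (A.VO : Set A.Y)) : SchemeHomOver t (A.VO.ι ≫ A.y) :=
  ⟨IsOpenImmersion.lift A.VO.ι g.1 (by rw [Scheme.Opens.range_ι]; exact hg), by
    rw [← Category.assoc, IsOpenImmersion.lift_fac]; exact g.2⟩

theorem push_lift {T : Scheme.{u}} {t : T ⟶ Spec (CommRingCat.of k)} (g : SchemeHomOver t A.y)
    (hg : Set.range g.1.base ⊆ (A.VO : Set A.Y)) : A.push (A.lift g hg) = g :=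
  Glue.schemeHomOver_ext (IsOpenImmersion.lift_fac _ _ _)

/-- **the affine-local chart of a `PreChart`** -/
def toAffChart : AffChart c ε where
  V := A.VO.toScheme
  v := A.VO.ι ≫ A.y
  finiteType := by
    haveI := A.finiteType
    infer_instance
  univ := A.univ
  univ_mem := FibrewiseAlgEquivZero.pullback A.incl A.P_mem
  mono := by
    intro T hT t g g' h
    have h1 : RLB.Iso (A.P.pullbackAlong (A.push g)) (A.P.pullbackAlong (A.push g')) := by
      obtain ⟨e⟩ := A.iso_push g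
      obtain ⟨e'⟩ := A.iso_push g'
      obtain ⟨e₀⟩ := h
      exact ⟨e ≪≫ e₀ ≪≫ e'.symm⟩
    have h2 := A.classify_unique hT t (A.push g) (A.push g') (A.Q_push hT g) h1
    have h3 : g.1 ≫ A.VO.ι = g'.1 ≫ A.VO.ι := congrArg Subtype.val h2
    exact Glue.schemeHomOver_ext ((cancel_mono A.VO.ι).mp h3)
  locus := fun hT t M => A.locusQ hT t M
  locus_iff := by
    intro T T' hT hT' t t' ψ M hM
    rw [← A.locusQ_iff hT hT' t t' ψ M hM]
    constructor
    · rintro ⟨g, hg⟩
      obtain ⟨e⟩ := A.iso_push g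
      obtain ⟨e₀⟩ := hg
      exact A.Q_congr t' _ _ ⟨e ≪≫ e₀⟩ (A.Q_push hT' g)
    · intro hQ
      obtain ⟨g₀, hg₀⟩ := A.exists_classify hT' t' (M.pullbackAlong ψ)
        (FibrewiseAlgEquivZero.pullback ψ hM) hQ
      have hQ₀ : A.Q t' (A.P.pullbackAlong g₀) := by
        obtain ⟨e⟩ := hg₀
        exact A.Q_congr t' _ _ ⟨e.symm⟩ hQ
      have hr := (A.locusQ_iff A.isAffine hT' A.y t' g₀ A.P A.P_mem).mp hQ₀
      refine ⟨A.lift g₀ hr, ?_⟩
      obtain ⟨e⟩ := A.iso_push (A.lift g₀ hr)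
      obtain ⟨e₀⟩ := hg₀
      rw [A.push_lift g₀ hr] at e
      exact ⟨e.symm ≪≫ e₀⟩

end PreChart

end Fermat.Agent.S25lib.Hub
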