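/-
S25lib / Hub / KB  (helper7)  --  Project L (S25): the Krichever condition `KB` in sections form.

`Z : Curve.ZChart e` is the two-chart atlas `U₁ = C ∖ e`, `U₂ ∋ e` with the local parameter `z`.  For a `k`-scheme
`t : T ⟶ Spec k` and a module `N` on `C ×_k T`:

* `zT Z t` = the pullback of `z` to the box `U₂ × T` (this is helper8's `ZChart.zK` when `T` is a field);
* `Kfun Z t N : Γ(N, U₁ × T) × Γ(N, U₂ × T) → Γ(N, (U₁ × T) ⊓ (U₂ × T))`, `(w, l) ↦ w| + (z • l)|`;
* `KB Z t N` = `Kfun` is bijective (`H⁰(N(-e)) = 0 = H¹(N(-e))` when `T` is affine),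
  `KSurj Z t N` = `Kfun` is surjective (`H¹(N(-e)) = 0`);
* `DegG Z t N` = over every geometric point of `T`, `KSurj` of the fibre implies `KB` of the fibre
  (true when the fibres have degree `g`).
-/
import Fermat.Agent.S25lib.Hub.OPoint
import Fermat.Agent.S25lib.Curve.ZChart

set_option autoImplicit false

noncomputable section

universe u

open AlgebraicGeometry CategoryTheory CategoryTheory.Limits AlgebraicGeometry.RelPicard
  NeronModelInfra GoodReductionJacobian

namespace Fermat.Agent.S25lib.Hub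

open Fermat.Agent.S26lib

variable {k : Type u} [Field k] {C : Scheme.{u}} {c : C ⟶ Spec (CommRingCat.of k)}
  {ε : SchemeHomOver (𝟙 (Spec (CommRingCat.of k))) c}

section KB

variable {e : C} (Z : Curve.ZChart e) {T : Scheme.{u}} (t : T ⟶ Spec (CommRingCat.of k))

/-- the pullback of the local parameter to the box `U₂ × T` -/
def zT : Γ(pullback c t, ProdAff.box c t Z.U₂ ⊤) :=
  ((pullback.fst c t).appLE Z.U₂ (ProdAff.box c t Z.U₂ ⊤) (ProdAff.box_le_fst c t Z.U₂ ⊤)).hom Z.z

/-- the Krichever map `(w, l) ↦ w + z • l` -/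
def Kfun (N : (pullback c t).Modules)
    (p : Γ(N, ProdAff.box c t Z.U₁ ⊤) × Γ(N, ProdAff.box c t Z.U₂ ⊤)) :
    Γ(N, ProdAff.box c t Z.U₁ ⊤ ⊓ ProdAff.box c t Z.U₂ ⊤) :=
  Mod.res N (inf_le_left : ProdAff.box c t Z.U₁ ⊤ ⊓ ProdAff.box c t Z.U₂ ⊤ ≤ _) p.1 +
    Mod.res N (inf_le_right : ProdAff.box c t Z.U₁ ⊤ ⊓ ProdAff.box c t Z.U₂ ⊤ ≤ _)
      (zT (c := c) Z t • p.2)

/-- **the Krichever condition**: every section over `U₁₂ × T` is uniquely `w + z • l` -/
def KB (N : (pullback c t).Modules) : Prop := Function.Bijective (Kfun Z t N)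

/-- the surjective half of the Krichever condition -/
def KSurj (N : (pullback c t).Modules) : Prop := Function.Surjective (Kfun Z t N)

variable {Z t}

theorem KB.kSurj {N : (pullback c t).Modules} (h : KB Z t N) : KSurj Z t N := h.2

/-- the Krichever map is natural in the module -/
theorem Kfun_map {N N' : (pullback c t).Modules} (φ : N ⟶ N')
    (p : Γ(N, ProdAff.box c t Z.U₁ ⊤) × Γ(N, ProdAff.box c t Z.U₂ ⊤)) :
    φ.app _ (Kfun Z t N p) = Kfun Z t N' (φ.app _ p.1, φ.app _ p.2) := by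
  unfold Kfun
  rw [map_add, Mod.app_res, Mod.app_res]
  congr 2
  exact Scheme.Modules.Hom.app_smul _ _ _

theorem KB.congr {N N' : (pullback c t).Modules} (α : N ≅ N') (h : KB Z t N) : KB Z t N' := by
  have hb : ∀ U : (pullback c t).Opens, Function.Bijective (α.hom.app U) :=
    fun U => Mod.bijective_app_of_iso α U
  have hcomm : (fun p => Kfun Z t N' p) ∘
      (fun p : Γ(N, ProdAff.box c t Z.U₁ ⊤) × Γ(N, ProdAff.box c t Z.U₂ ⊤) =>
        ((α.hom.app _ p.1, α.hom.app _ p.2) :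
          Γ(N', ProdAff.box c t Z.U₁ ⊤) × Γ(N', ProdAff.box c t Z.U₂ ⊤))) =
      (α.hom.app _) ∘ Kfun Z t N := by
    funext p
    exact (Kfun_map α.hom p).symm
  have h1 : Function.Bijective
      (fun p : Γ(N, ProdAff.box c t Z.U₁ ⊤) × Γ(N, ProdAff.box c t Z.U₂ ⊤) =>
        ((α.hom.app _ p.1, α.hom.app _ p.2) :
          Γ(N', ProdAff.box c t Z.U₁ ⊤) × Γ(N', ProdAff.box c t Z.U₂ ⊤))) :=
    Function.bijective_iff_has_inverse.mpr
      ⟨fun q => ((Equiv.ofBijective _ (hb _)).symm q.1, (Equiv.ofBijective _ (hb _)).symm q.2),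
        fun p => Prod.ext ((Equiv.ofBijective _ (hb _)).symm_apply_apply p.1)
          ((Equiv.ofBijective _ (hb _)).symm_apply_apply p.2),
        fun q => Prod.ext ((Equiv.ofBijective _ (hb _)).apply_symm_apply q.1)
          ((Equiv.ofBijective _ (hb _)).apply_symm_apply q.2)⟩
  have h2 : Function.Bijective ((α.hom.app _) ∘ Kfun Z t N) := (hb _).comp h
  rw [← hcomm] at h2
  exact (Function.Bijective.of_comp_iff _ h1).mp h2

theorem KSurj.congr {N N' : (pullback c t).Modules} (α : N ≅ N') (h : KSurj Z t N) :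
    KSurj Z t N' := by
  intro y
  obtain ⟨y', rfl⟩ := (Mod.bijective_app_of_iso α _).2 y
  obtain ⟨p, rfl⟩ := h y'
  exact ⟨_, (Kfun_map α.hom p).symm⟩

variable (Z t)

/-- **degree `g` in the form used**: on every geometric fibre, `H¹(N_x(-e)) = 0` implies `H⁰(N_x(-e)) = 0` -/
def DegG (N : (pullback c t).Modules) : Prop :=
  ∀ (K : Type u) [Field K] [IsAlgClosed K] (x : Spec (CommRingCat.of K) ⟶ T),
    KSurj Z (x ≫ t)
        ((Scheme.Modules.pullback (baseChangeSnd c (⟨x, rfl⟩ : SchemeHomOver (x ≫ t) t))).obj N) →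
      KB Z (x ≫ t)
        ((Scheme.Modules.pullback (baseChangeSnd c (⟨x, rfl⟩ : SchemeHomOver (x ≫ t) t))).obj N)

variable {Z t}

theorem DegG.congr {N N' : (pullback c t).Modules} (α : N ≅ N') (h : DegG Z t N) :
    DegG Z t N' := by
  intro K _ _ x hs
  exact (h K x (hs.congr ((Scheme.Modules.pullback _).mapIso α.symm))).congr
    ((Scheme.Modules.pullback _).mapIso α)

end KB

end Fermat.Agent.S25lib.Hub
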