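/-
S25lib / Hub / Layer  (helper7)  --  Project L (S25): the interface between the chart analysis and the formal
construction of the charts.

`KBLayer c ε Z` collects what the analysis of the Krichever condition has to deliver, free of ideals:
* `E i` (`i : I`): the point configurations, as lists of based cocycles (`M ↦ M(E i) = twistByList (E i) M`);
* `Y b = Spec (H k β)` (`b : B`) with the bundle `OD b = O(D_univ)`;
* `unique` (L2): a map `g` to `Y b` with `KB (g^* OD)` is determined by the class of `g^* OD`;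
* `locus` (L3): over an affine base, for a bundle `N` with `DegG`, the condition
  "`KB (ψ^* N)` and `ψ^* N` is a pullback of `OD b`" is open;
* `kbOpen` (K2): the same for `KB (ψ^* N)` alone;
* `degG` (K3): `InP M → DegG (M(E i))`;   `mem`: `OD b (-E i)` is in the cut;
* `coverE`, `coverB`: every pair of bundles of the cut over an algebraically closed field satisfies `KB` after a
  common twist, and every pair of bundles with `KB` over a field is a pair of pullbacks of a common `OD b`.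

From a `KBLayer` the file derives, for every `(i, b)`, a `PreChart` (hence an `AffChart`) and the covering
statements for fields.
-/
import Fermat.Agent.S25lib.Hub.KB
import Fermat.Agent.S25lib.Hub.ChartFormal

set_option autoImplicit false

noncomputable section

universe u

open AlgebraicGeometry CategoryTheory CategoryTheory.Limits AlgebraicGeometry.RelPicard
  NeronModelInfra GoodReductionJacobian

namespace Fermat.Agent.S25lib.Hub

variable {k : Type u} [Field k] {C : Scheme.{u}} (c : C ⟶ Spec (CommRingCat.of k))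
  (ε : SchemeHomOver (𝟙 (Spec (CommRingCat.of k))) c)

variable {c ε}

theorem isoRefl {T : Scheme.{u}} {t : T ⟶ Spec (CommRingCat.of k)} (M : RLB c ε t) :
    RLB.Iso M M := ⟨Iso.refl _⟩

theorem isoSymm {T : Scheme.{u}} {t : T ⟶ Spec (CommRingCat.of k)} {M M' : RLB c ε t}
    (h : RLB.Iso M M') : RLB.Iso M' M := ⟨h.some.symm⟩

theorem isoTrans {T : Scheme.{u}} {t : T ⟶ Spec (CommRingCat.of k)} {M M' M'' : RLB c ε t}
    (h : RLB.Iso M M') (h' : RLB.Iso M' M'') : RLB.Iso M M'' := ⟨h.some ≪≫ h'.some⟩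

variable (c ε)

/-- **the interface of the chart analysis** -/
structure KBLayer {e : C} (Z : Curve.ZChart e) where
  /-- the index of the point configurations -/
  I : Type u
  /-- the point configurations -/
  E : I → List (BasedCocycle c ε (ULift.{u} Bool))
  /-- the index of the frames -/
  B : Type u
  /-- the framed charts of the Hilbert functor -/
  Y : B → Scheme.{u}
  y : ∀ b, Y b ⟶ Spec (CommRingCat.of k)
  isAffine : ∀ b, IsAffine (Y b)
  finiteType : ∀ b, LocallyOfFiniteType (y b)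
  smooth : ∀ b, Smooth (y b)
  /-- the bundle of the universal divisor -/
  OD : ∀ b, RLB c ε (y b)
  /-- (L2) -/
  unique : ∀ (b : B) {T : Scheme.{u}} (_ : IsAffine T) (t : T ⟶ Spec (CommRingCat.of k))
    (g g' : SchemeHomOver t (y b)), KB Z t ((OD b).pullbackAlong g).L →
    RLB.Iso ((OD b).pullbackAlong g) ((OD b).pullbackAlong g') → g = g'
  /-- (L3) -/
  locus : ∀ (b : B) {T : Scheme.{u}} (_ : IsAffine T) (t : T ⟶ Spec (CommRingCat.of k))
    (N : RLB c ε t), DegG Z t N.L → ∃ U : T.Opens, ∀ {T' : Scheme.{u}} (_ : IsAffine T')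
      (t' : T' ⟶ Spec (CommRingCat.of k)) (ψ : SchemeHomOver t' t),
      ((KB Z t' (N.pullbackAlong ψ).L ∧
          ∃ g : SchemeHomOver t' (y b), RLB.Iso ((OD b).pullbackAlong g) (N.pullbackAlong ψ)) ↔
        Set.range ψ.1.base ⊆ (U : Set T))
  /-- (K2) -/
  kbOpen : ∀ {T : Scheme.{u}} (_ : IsAffine T) (t : T ⟶ Spec (CommRingCat.of k))
    (N : RLB c ε t), DegG Z t N.L → ∃ U : T.Opens, ∀ {T' : Scheme.{u}} (_ : IsAffine T')
      (t' : T' ⟶ Spec (CommRingCat.of k)) (ψ : SchemeHomOver t' t),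
      (KB Z t' (N.pullbackAlong ψ).L ↔ Set.range ψ.1.base ⊆ (U : Set T))
  /-- (K3) -/
  degG : ∀ (i : I) {T : Scheme.{u}} (t : T ⟶ Spec (CommRingCat.of k)) (M : RLB c ε t),
    InP M → DegG Z t (twistByList (E i) M).L
  /-- (P-Mem) -/
  mem : ∀ (i : I) (b : B), InP (twistByList (invList (E i)) (OD b))
  /-- (COVER), for pairs -/
  coverE : ∀ (K : Type u) [Field K] [IsAlgClosed K]
    (t : Spec (CommRingCat.of K) ⟶ Spec (CommRingCat.of k)) (M M' : RLB c ε t), InP M → InP M' →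
    ∃ i : I, KB Z t (twistByList (E i) M).L ∧ KB Z t (twistByList (E i) M').L
  /-- the frames cover, for pairs -/
  coverB : ∀ (K : Type u) [Field K]
    (t : Spec (CommRingCat.of K) ⟶ Spec (CommRingCat.of k)) (N N' : RLB c ε t),
    KB Z t N.L → KB Z t N'.L →
    ∃ b : B, (∃ g : SchemeHomOver t (y b), RLB.Iso ((OD b).pullbackAlong g) N) ∧
      ∃ g' : SchemeHomOver t (y b), RLB.Iso ((OD b).pullbackAlong g') N'

namespace KBLayer

variable {c ε} {e : C} {Z : Curve.ZChart e} (𝓛 : KBLayer c ε Z)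

/-- the predicate of the chart `(i, b)` -/
def Q (i : 𝓛.I) (b : 𝓛.B) {T : Scheme.{u}} (t : T ⟶ Spec (CommRingCat.of k)) (M : RLB c ε t) :
    Prop :=
  KB Z t (twistByList (𝓛.E i) M).L ∧
    ∃ g : SchemeHomOver t (𝓛.y b), RLB.Iso ((𝓛.OD b).pullbackAlong g) (twistByList (𝓛.E i) M)

theorem Q_congr (i : 𝓛.I) (b : 𝓛.B) {T : Scheme.{u}} (t : T ⟶ Spec (CommRingCat.of k))
    (M M' : RLB c ε t) (h : RLB.Iso M M') (hQ : 𝓛.Q i b t M) : 𝓛.Q i b t M' := by
  obtain ⟨h1, g, h2⟩ := hQ
  have h3 := twistByList_congr (𝓛.E i) h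
  exact ⟨h1.congr h3.some, g, isoTrans h2 h3⟩

/-- the locus of the chart `(i, b)` -/
def locusQ (i : 𝓛.I) (b : 𝓛.B) {T : Scheme.{u}} (hT : IsAffine T)
    (t : T ⟶ Spec (CommRingCat.of k)) (M : RLB c ε t) : T.Opens := by
  classical
  exact if h : InP M then
    (𝓛.locus b hT t (twistByList (𝓛.E i) M) (𝓛.degG i t M h)).choose else ⊥

theorem locusQ_iff (i : 𝓛.I) (b : 𝓛.B) {T T' : Scheme.{u}} (hT : IsAffine T) (hT' : IsAffine T')
    (t : T ⟶ Spec (CommRingCat.of k)) (t' : T' ⟶ Spec (CommRingCat.of k))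
    (ψ : SchemeHomOver t' t) (M : RLB c ε t) (hM : InP M) :
    𝓛.Q i b t' (M.pullbackAlong ψ) ↔ Set.range ψ.1.base ⊆ (𝓛.locusQ i b hT t M : Set T) := by
  have hl : 𝓛.locusQ i b hT t M =
      (𝓛.locus b hT t (twistByList (𝓛.E i) M) (𝓛.degG i t M hM)).choose := by
    unfold locusQ
    rw [dif_pos hM]
  rw [hl, ← (𝓛.locus b hT t (twistByList (𝓛.E i) M) (𝓛.degG i t M hM)).choose_spec hT' t' ψ]
  have h1 := twistByList_pullbackAlong (𝓛.E i) ψ M
  unfold Q
  constructor
  · rintro ⟨h2, g, h3⟩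
    exact ⟨h2.congr h1.some.symm, g, isoTrans h3 (isoSymm h1)⟩
  · rintro ⟨h2, g, h3⟩
    exact ⟨h2.congr h1.some, g, isoTrans h3 h1⟩

/-- **the `PreChart` of the index `(i, b)`** -/
def preChart (i : 𝓛.I) (b : 𝓛.B) : PreChart c ε where
  Y := 𝓛.Y b
  y := 𝓛.y b
  isAffine := 𝓛.isAffine b
  finiteType := 𝓛.finiteType b
  P := twistByList (invList (𝓛.E i)) (𝓛.OD b)
  P_mem := 𝓛.mem i b
  Q := fun t M => 𝓛.Q i b t M
  Q_congr := fun t M M' h hQ => 𝓛.Q_congr i b t M M' h hQ
  locusQ := fun hT t M => 𝓛.locusQ i b hT t M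
  locusQ_iff := fun hT hT' t t' ψ M hM => 𝓛.locusQ_iff i b hT hT' t t' ψ M hM
  exists_classify := by
    intro T _ t M _ hQ
    obtain ⟨-, g, h2⟩ := hQ
    refine ⟨g, ?_⟩
    have h3 := twistByList_pullbackAlong (invList (𝓛.E i)) g (𝓛.OD b)
    have h4 := twistByList_congr (invList (𝓛.E i)) h2
    exact isoTrans (isoTrans h3 h4) (twistByList_invList (𝓛.E i) M)
  classify_unique := by
    intro T hT t g g' hQ h
    obtain ⟨h1, -⟩ := hQ
    -- `(g^* P)(E) ≅ g^* (P(E)) ≅ g^* OD`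
    have key : ∀ g₀ : SchemeHomOver t (𝓛.y b),
        RLB.Iso (twistByList (𝓛.E i)
          ((twistByList (invList (𝓛.E i)) (𝓛.OD b)).pullbackAlong g₀))
          ((𝓛.OD b).pullbackAlong g₀) := by
      intro g₀
      have h2 := twistByList_pullbackAlong (𝓛.E i) g₀ (twistByList (invList (𝓛.E i)) (𝓛.OD b))
      have h3 : RLB.Iso ((twistByList (𝓛.E i)
          (twistByList (invList (𝓛.E i)) (𝓛.OD b))).pullbackAlong g₀)
          ((𝓛.OD b).pullbackAlong g₀) :=
        Glue.pullbackAlong_iso g₀ (twistByList_twistByList_invList (𝓛.E i) (𝓛.OD b))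
      exact isoTrans (isoSymm h2) h3
    refine 𝓛.unique b hT t g g' (h1.congr (key g).some) ?_
    exact isoTrans (isoTrans (isoSymm (key g)) (twistByList_congr (𝓛.E i) h)) (key g')

/-- the affine-local chart of the index `(i, b)` -/
def affChart (i : 𝓛.I) (b : 𝓛.B) : AffChart c ε := (𝓛.preChart i b).toAffChart

theorem smooth_affChart (i : 𝓛.I) (b : 𝓛.B) : Smooth (𝓛.affChart i b).v := by
  have h1 : Smooth (𝓛.y b) := 𝓛.smooth b
  have h2 : Smooth (𝓛.preChart i b).VO.ι := inferInstance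
  exact @smooth_comp _ _ (𝓛.preChart i b).VO.ι _ (𝓛.y b) h2 h1

/-- a bundle of the cut with `Q` over an affine base is classified by the chart -/
theorem exists_of_Q (i : 𝓛.I) (b : 𝓛.B) {T : Scheme.{u}} (hT : IsAffine T)
    (t : T ⟶ Spec (CommRingCat.of k)) (M : RLB c ε t) (hM : InP M) (hQ : 𝓛.Q i b t M) :
    ∃ g : SchemeHomOver t (𝓛.affChart i b).v,
      RLB.Iso ((𝓛.affChart i b).univ.pullbackAlong g) M := by
  have hid : RLB.Iso (M.pullbackAlong (Glue.idOver t)) M :=
    ⟨Glue.pullbackAlongIdIso M (Glue.idOver t) rfl⟩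
  have h1 : 𝓛.Q i b t (M.pullbackAlong (Glue.idOver t)) := 𝓛.Q_congr i b t _ _ (isoSymm hid) hQ
  have h2 := (𝓛.locusQ_iff i b hT hT t t (Glue.idOver t) M hM).mp h1
  obtain ⟨g, hg⟩ := ((𝓛.affChart i b).locus_iff hT hT t t (Glue.idOver t) M hM).mpr h2
  exact ⟨g, isoTrans hg hid⟩

include 𝓛 in
/-- **`KB` descends from a field extension** (a consequence of (K2)) -/
theorem kb_of_pullback {K : Type u} [Field K]
    (t : Spec (CommRingCat.of K) ⟶ Spec (CommRingCat.of k)) (N : RLB c ε t) (hN : DegG Z t N.L)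
    {T' : Scheme.{u}} (hT' : IsAffine T') [Nonempty T'] (t' : T' ⟶ Spec (CommRingCat.of k))
    (x : SchemeHomOver t' t) (h : KB Z t' (N.pullbackAlong x).L) : KB Z t N.L := by
  obtain ⟨U, hU⟩ := 𝓛.kbOpen (inferInstance : IsAffine (Spec (CommRingCat.of K))) t N hN
  have h1 := (hU hT' t' x).mp h
  have h2 : Set.range (Glue.idOver t).1.base ⊆ (U : Set (Spec (CommRingCat.of K))) := by
    rintro p -
    obtain ⟨p'⟩ := (inferInstance : Nonempty T')
    have : p = x.1.base p' := Subsingleton.elim _ _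
    rw [this]
    exact h1 ⟨p', rfl⟩
  have h3 := (hU (inferInstance : IsAffine (Spec (CommRingCat.of K))) t (Glue.idOver t)).mpr h2
  exact h3.congr (Glue.pullbackAlongIdIso N (Glue.idOver t) rfl)

/-- **two bundles of the cut over a field lie in a common chart** -/
theorem exists_common_chart (K : Type u) [Field K]
    (t : Spec (CommRingCat.of K) ⟶ Spec (CommRingCat.of k)) (M M' : RLB c ε t)
    (hM : InP M) (hM' : InP M') :
    ∃ (i : 𝓛.I) (b : 𝓛.B),
      (∃ g : SchemeHomOver t (𝓛.affChart i b).v,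
        RLB.Iso ((𝓛.affChart i b).univ.pullbackAlong g) M) ∧
      ∃ g' : SchemeHomOver t (𝓛.affChart i b).v,
        RLB.Iso ((𝓛.affChart i b).univ.pullbackAlong g') M' := by
  let x : Spec (CommRingCat.of (AlgebraicClosure K)) ⟶ Spec (CommRingCat.of K) :=
    Spec.map (CommRingCat.ofHom (algebraMap K (AlgebraicClosure K)))
  let ψ : SchemeHomOver (x ≫ t) t := ⟨x, rfl⟩
  obtain ⟨i, h1, h1'⟩ := 𝓛.coverE (AlgebraicClosure K) (x ≫ t) (M.pullbackAlong ψ)
    (M'.pullbackAlong ψ) (FibrewiseAlgEquivZero.pullback ψ hM)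
    (FibrewiseAlgEquivZero.pullback ψ hM')
  have h2 : KB Z t (twistByList (𝓛.E i) M).L :=
    𝓛.kb_of_pullback t _ (𝓛.degG i t M hM) inferInstance (x ≫ t) ψ
      (h1.congr (twistByList_pullbackAlong (𝓛.E i) ψ M).some.symm)
  have h2' : KB Z t (twistByList (𝓛.E i) M').L :=
    𝓛.kb_of_pullback t _ (𝓛.degG i t M' hM') inferInstance (x ≫ t) ψ
      (h1'.congr (twistByList_pullbackAlong (𝓛.E i) ψ M').some.symm)
  obtain ⟨b, ⟨g, hg⟩, ⟨g', hg'⟩⟩ := 𝓛.coverB K t _ _ h2 h2'
  exact ⟨i, b, 𝓛.exists_of_Q i b inferInstance t M hM ⟨h2, g, hg⟩,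
    𝓛.exists_of_Q i b inferInstance t M' hM' ⟨h2', g', hg'⟩⟩

/-- **the chart cover of a layer**, given the extension statement -/
def chartCover (hExt : ExtStatement c ε) (hrig : RigApp c) : ChartCover c ε where
  ι := 𝓛.I × 𝓛.B
  chart := fun p => (𝓛.affChart p.1 p.2).toChart (hExt hrig _)
  cover := by
    intro K _ t M hM
    obtain ⟨i, b, ⟨g, hg⟩, -⟩ := 𝓛.exists_common_chart K t M M hM hM
    exact ⟨(i, b), g, hg⟩

theorem chartCover_cover2 (hExt : ExtStatement c ε) (hrig : RigApp c) :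
    (𝓛.chartCover hExt hrig).Cover2 := by
  intro K _ t M M' hM hM'
  obtain ⟨i, b, h, h'⟩ := 𝓛.exists_common_chart K t M M' hM hM'
  exact ⟨(i, b), h, h'⟩

theorem smooth_chartCover (hExt : ExtStatement c ε) (hrig : RigApp c) (p : 𝓛.I × 𝓛.B) :
    Smooth ((𝓛.chartCover hExt hrig).chart p).v :=
  𝓛.smooth_affChart p.1 p.2

end KBLayer

end Fermat.Agent.S25lib.Hub
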