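/-
S25lib / Hub / LayerInst  (helper7)  --  Project L (S25): the concrete `KBLayer`.
Index `I = EIdx c ε γ` (lists of `γ` rational points `≠ ε` with point charts), frames `B = Fin γ → Γ(C, U₁)`,
`Y β = Spec (H k β)`.  The fields `degG` and `coverE` from helper9's `degG_of`, `coverE_of` (given `PDeg c` and
`UniformGenus c γ`); the remaining fields are the inputs `LayerInputs` of the chart analysis.
-/
import Fermat.Agent.S25lib.Hub.Layer
import Fermat.Agent.S25lib.Hub.HilbChart
import Fermat.Agent.S25lib.Polar.LayerFields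

set_option autoImplicit false

noncomputable section

universe u

open AlgebraicGeometry CategoryTheory CategoryTheory.Limits AlgebraicGeometry.RelPicard
  NeronModelInfra GoodReductionJacobian

namespace Fermat.Agent.S25lib.Hub

open Fermat.Agent.S26lib

variable {k : Type u} [Field k] [IsAlgClosed k] {C : Scheme.{u}}
  (c : C ⟶ Spec (CommRingCat.of k)) [IsProper c] [SmoothOfRelativeDimension 1 c] [IsIntegral C]
  (ε : Prod.KPt c)

/-- the point datum of a rational point different from the base point -/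
def PtData.ofKPt (ε' : Prod.KPt c) (h : ε' ≠ ε) : PtData c ε where
  pt := ε'
  chart := Classical.choice (Curve.nonempty_pointChart c ε')
  ne := by
    intro y hy
    apply h
    apply Prod.KPt.ext_pt
    have hy' : y = Prod.KPt.o k := Subsingleton.elim _ _
    rw [hy'] at hy
    exact hy.symm

variable {c ε}

theorem isPtCocycle_based (d : PtData c ε) : Polar.IsPtCocycle c ε d.based d.pt :=
  ⟨d.pt.pt, d.chart, d.ne, rfl, rfl⟩

theorem forall₂_isPtCocycle (l : List (PtData c ε)) :
    List.Forall₂ (Polar.IsPtCocycle c ε) (l.map PtData.based) (l.map PtData.pt) := by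
  induction l with
  | nil => exact List.Forall₂.nil
  | cons d l ih => exact List.Forall₂.cons (isPtCocycle_based d) ih

variable (Z : Curve.ZChart ε.pt) {γ : ℕ}

/-- the field `degG` -/
theorem degG_EIdx (hP : Polar.PDeg c) (hγ : Polar.UniformGenus c γ) (i : EIdx c ε γ)
    {T : Scheme.{u}} (t : T ⟶ Spec (CommRingCat.of k)) (M : RLB c ε t) (hM : InP M) :
    DegG Z t (twistByList i.E M).L :=
  Polar.degG_of c ε Z hP hγ (forall₂_isPtCocycle i.1)
    (by rw [List.length_map]; exact i.2) t M hM

/-- the field `coverE` -/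
theorem coverE_EIdx (hP : Polar.PDeg c) (hγ : Polar.UniformGenus c γ)
    (K : Type u) [Field K] [IsAlgClosed K]
    (t : Spec (CommRingCat.of K) ⟶ Spec (CommRingCat.of k)) (M M' : RLB c ε t)
    (hM : InP M) (hM' : InP M') :
    ∃ i : EIdx c ε γ, KB Z t (twistByList i.E M).L ∧ KB Z t (twistByList i.E M').L := by
  obtain ⟨pts, hlen, -, hne, h⟩ := Polar.coverE_of c ε Z hP hγ K t M M' hM hM'
  let l : List (PtData c ε) := pts.attach.map (fun p => PtData.ofKPt c ε p.1 (hne p.1 p.2))
  have hl : l.length = γ := by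
    simp only [l, List.length_map, List.length_attach]
    exact hlen
  have hpts : l.map PtData.pt = pts := by
    simp only [l, List.map_map]
    have : (PtData.pt ∘ fun p : {x // x ∈ pts} => PtData.ofKPt c ε p.1 (hne p.1 p.2)) =
        Subtype.val := by
      funext p
      rfl
    rw [this, List.attach_map_subtype_val]
  have h2 := forall₂_isPtCocycle l
  rw [hpts] at h2
  exact ⟨⟨l, hl⟩, h _ h2⟩

variable (c ε)

/-- **the inputs of the chart analysis** for the concrete index: everything of a `KBLayer` except `degG`,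
`coverE` (helper9) and the scheme-theoretic properties of `Y β` (`Hub/HilbChart`) -/
structure LayerInputs (T₀ : Curve.PointChart c ε.pt) (γ : ℕ) where
  /-- the bundle of the universal divisor over `Y β = Spec (H k β)` -/
  OD : ∀ β : Fin γ → Γ(C, T₀.U₁), RLB c ε (hilby c T₀ β)
  unique : ∀ (β : Fin γ → Γ(C, T₀.U₁)) {T : Scheme.{u}} (_ : IsAffine T)
    (t : T ⟶ Spec (CommRingCat.of k)) (g g' : SchemeHomOver t (hilby c T₀ β)),
    KB T₀.toZChart t ((OD β).pullbackAlong g).L →
    RLB.Iso ((OD β).pullbackAlong g) ((OD β).pullbackAlong g') → g = g'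
  locus : ∀ (β : Fin γ → Γ(C, T₀.U₁)) {T : Scheme.{u}} (_ : IsAffine T)
    (t : T ⟶ Spec (CommRingCat.of k)) (N : RLB c ε t), DegG T₀.toZChart t N.L →
    ∃ U : T.Opens, ∀ {T' : Scheme.{u}} (_ : IsAffine T')
      (t' : T' ⟶ Spec (CommRingCat.of k)) (ψ : SchemeHomOver t' t),
      ((KB T₀.toZChart t' (N.pullbackAlong ψ).L ∧
          ∃ g : SchemeHomOver t' (hilby c T₀ β),
            RLB.Iso ((OD β).pullbackAlong g) (N.pullbackAlong ψ)) ↔
        Set.range ψ.1.base ⊆ (U : Set T))
  kbOpen : ∀ {T : Scheme.{u}} (_ : IsAffine T) (t : T ⟶ Spec (CommRingCat.of k))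
    (N : RLB c ε t), DegG T₀.toZChart t N.L → ∃ U : T.Opens, ∀ {T' : Scheme.{u}} (_ : IsAffine T')
      (t' : T' ⟶ Spec (CommRingCat.of k)) (ψ : SchemeHomOver t' t),
      (KB T₀.toZChart t' (N.pullbackAlong ψ).L ↔ Set.range ψ.1.base ⊆ (U : Set T))
  mem : ∀ (i : EIdx c ε γ) (β : Fin γ → Γ(C, T₀.U₁)), InP (twistByList (invList i.E) (OD β))
  coverB : ∀ (K : Type u) [Field K]
    (t : Spec (CommRingCat.of K) ⟶ Spec (CommRingCat.of k)) (N N' : RLB c ε t),
    KB T₀.toZChart t N.L → KB T₀.toZChart t N'.L →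
    ∃ β : Fin γ → Γ(C, T₀.U₁),
      (∃ g : SchemeHomOver t (hilby c T₀ β), RLB.Iso ((OD β).pullbackAlong g) N) ∧
      ∃ g' : SchemeHomOver t (hilby c T₀ β), RLB.Iso ((OD β).pullbackAlong g') N'

variable {c ε}

/-- **the concrete layer** -/
def LayerInputs.layer {T₀ : Curve.PointChart c ε.pt} {γ : ℕ} (inp : LayerInputs c ε T₀ γ)
    (hP : Polar.PDeg c) (hγ : Polar.UniformGenus c γ) : KBLayer c ε T₀.toZChart where
  I := EIdx c ε γ
  E := fun i => i.E
  B := Fin γ → Γ(C, T₀.U₁)
  Y := fun β => hilbY c T₀ β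
  y := fun β => hilby c T₀ β
  isAffine := fun β => isAffine_hilbY c T₀ β
  finiteType := fun β => locallyOfFiniteType_hilby c T₀ β
  smooth := fun β => smooth_hilby c ε T₀ β
  OD := inp.OD
  unique := inp.unique
  locus := inp.locus
  kbOpen := inp.kbOpen
  degG := fun i _ t M hM => degG_EIdx T₀.toZChart hP hγ i t M hM
  mem := inp.mem
  coverE := fun K _ _ t M M' hM hM' => coverE_EIdx T₀.toZChart hP hγ K t M M' hM hM'
  coverB := inp.coverB

end Fermat.Agent.S25lib.Hub
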