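/-
S25lib / Hub / HilbPt  (helper7)  --  Project L (S25): the CONCRETE points of the Hilbert functor of `C ∖ e` over a
`k`-scheme `t : T ⟶ Spec k`, in helper5's `Hilb` language:

* `algTop t : Algebra k Γ(T, ⊤)` := `algOpen t ⊤` (`algebraMap = (constHomOpen t ⊤).hom`), and
  `algOpen c U₁ : Algebra k Γ(C, U₁)`;
* `HPt c T₀ γ t` = ideals `I ⊂ Γ(T, ⊤) ⊗[k] Γ(C, U₁)` with `Hilb.IsPt γ I`;
* `appTopAlg ψ : Γ(T, ⊤) →ₐ[k] Γ(T', ⊤)` for `ψ : SchemeHomOver t' t`;
* `HPt.push ψ I` := `Hilb.push k _ (appTopAlg ψ) I`;   `HPt.Framed β I` := `Hilb.IsFramed β I`.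
-/
import Fermat.Agent.S25lib.Hub.HilbChart
import Fermat.Agent.S25lib.Hilb.Local
import Fermat.Agent.S25lib.Hilb.Rep

set_option autoImplicit false

noncomputable section

universe u

open AlgebraicGeometry CategoryTheory CategoryTheory.Limits TensorProduct AlgebraicGeometry.RelPicard
  NeronModelInfra GoodReductionJacobian

namespace Fermat.Agent.S25lib.Hub

open Fermat.Agent.S26lib

variable {k : Type u} [Field k] {C : Scheme.{u}} (c : C ⟶ Spec (CommRingCat.of k))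

/-- the `k`-algebra structure of the global functions of a `k`-scheme -/
@[reducible] def algTop {T : Scheme.{u}} (t : T ⟶ Spec (CommRingCat.of k)) : Algebra k Γ(T, ⊤) :=
  algOpen t ⊤

theorem algebraMap_algTop {T : Scheme.{u}} (t : T ⟶ Spec (CommRingCat.of k)) (r : k) :
    letI := algTop t
    algebraMap k Γ(T, ⊤) r = t.appTop ((Scheme.ΓSpecIso (CommRingCat.of k)).inv r) := by
  have h1 : t.appLE ⊤ ⊤ le_top = t.appTop := Scheme.Hom.appLE_eq_app (f := t) (U := ⊤)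
  show (P5a.constHomOpen t ⊤).hom r = _
  unfold P5a.constHomOpen
  rw [h1]
  rfl

/-- the pullback of functions along a morphism over `k`, as a `k`-algebra homomorphism -/
def appTopAlg {T T' : Scheme.{u}} {t : T ⟶ Spec (CommRingCat.of k)}
    {t' : T' ⟶ Spec (CommRingCat.of k)} (ψ : SchemeHomOver t' t) :
    letI := algTop t
    letI := algTop t'
    Γ(T, ⊤) →ₐ[k] Γ(T', ⊤) :=
  letI := algTop t
  letI := algTop t'
  { ψ.1.appTop.hom with
    commutes' := by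
      intro r
      show ψ.1.appTop.hom (algebraMap k Γ(T, ⊤) r) = algebraMap k Γ(T', ⊤) r
      rw [algebraMap_algTop, algebraMap_algTop]
      obtain ⟨ψ1, rfl⟩ := ψ
      rw [Scheme.Hom.comp_appTop]
      rfl }

theorem appTopAlg_apply {T T' : Scheme.{u}} {t : T ⟶ Spec (CommRingCat.of k)}
    {t' : T' ⟶ Spec (CommRingCat.of k)} (ψ : SchemeHomOver t' t) (r : Γ(T, ⊤)) :
    appTopAlg ψ r = ψ.1.appTop.hom r := rfl

theorem appTopAlg_appLE {T T' : Scheme.{u}} {t : T ⟶ Spec (CommRingCat.of k)}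
    {t' : T' ⟶ Spec (CommRingCat.of k)} (ψ : SchemeHomOver t' t) (r : Γ(T, ⊤)) :
    appTopAlg ψ r = (ψ.1.appLE ⊤ ⊤ (fun _ _ => trivial)).hom r := by
  have h1 : ψ.1.appLE ⊤ ⊤ (fun _ _ => trivial) = ψ.1.appTop :=
    Scheme.Hom.appLE_eq_app (f := ψ.1) (U := ⊤)
  rw [h1]
  rfl

/-- `R ≃ₐ[k] Γ(Spec R, ⊤)` for a `k`-algebra `R` -/
def gammaSpecAlgEquiv (R : Type u) [CommRing R] [Algebra k R] :
    letI := algTop (Spec.map (CommRingCat.ofHom (algebraMap k R)))
    R ≃ₐ[k] Γ(Spec (CommRingCat.of R), ⊤) :=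
  letI := algTop (Spec.map (CommRingCat.ofHom (algebraMap k R)))
  { (Scheme.ΓSpecIso (CommRingCat.of R)).symm.commRingCatIsoToRingEquiv with
    commutes' := by
      intro r
      show (Scheme.ΓSpecIso (CommRingCat.of R)).inv.hom (algebraMap k R r) = algebraMap k _ r
      rw [algebraMap_algTop]
      have h := Scheme.ΓSpecIso_inv_naturality (CommRingCat.ofHom (algebraMap k R))
      exact congrArg (fun f => f.hom r) h }

theorem gammaSpecAlgEquiv_apply (R : Type u) [CommRing R] [Algebra k R] (r : R) :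
    gammaSpecAlgEquiv (k := k) R r = (Scheme.ΓSpecIso (CommRingCat.of R)).inv.hom r := rfl

section

variable {e : C} (T₀ : Curve.PointChart c e) (γ : ℕ)

/-- **the points of the Hilbert functor of `C ∖ e` over `t : T ⟶ Spec k`** -/
def HPt {T : Scheme.{u}} (t : T ⟶ Spec (CommRingCat.of k)) : Type u :=
  letI := algOpen c T₀.U₁
  letI := algTop t
  {I : Ideal (Γ(T, ⊤) ⊗[k] Γ(C, T₀.U₁)) // Hilb.IsPt (k := k) (A := Γ(C, T₀.U₁)) γ I}

variable {c T₀ γ}

/-- base change of points -/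
def HPt.push {T T' : Scheme.{u}} {t : T ⟶ Spec (CommRingCat.of k)}
    {t' : T' ⟶ Spec (CommRingCat.of k)} (ψ : SchemeHomOver t' t) (I : HPt c T₀ γ t) :
    HPt c T₀ γ t' :=
  letI := algOpen c T₀.U₁
  letI := algTop t
  letI := algTop t'
  ⟨Hilb.push k Γ(C, T₀.U₁) (appTopAlg ψ) I.1, I.2.push (appTopAlg ψ)⟩

/-- `β` frames the point -/
def HPt.Framed (β : Fin γ → Γ(C, T₀.U₁)) {T : Scheme.{u}} {t : T ⟶ Spec (CommRingCat.of k)}
    (I : HPt c T₀ γ t) : Prop :=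
  letI := algOpen c T₀.U₁
  letI := algTop t
  Hilb.IsFramed β I.1

theorem HPt.framed_push (β : Fin γ → Γ(C, T₀.U₁)) {T T' : Scheme.{u}}
    {t : T ⟶ Spec (CommRingCat.of k)} {t' : T' ⟶ Spec (CommRingCat.of k)}
    (ψ : SchemeHomOver t' t) (I : HPt c T₀ γ t) (h : I.Framed β) : (I.push ψ).Framed β :=
  letI := algOpen c T₀.U₁
  letI := algTop t
  letI := algTop t'
  Hilb.IsFramed.push (k := k) (A := Γ(C, T₀.U₁)) h (appTopAlg ψ)

variable (c T₀)

/-- the point over `Spec R` of an ideal of `R ⊗[k] Γ(C, U₁)` -/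
def HPt.ofSpec (R : Type u) [CommRing R] [Algebra k R] :
    letI := algOpen c T₀.U₁
    ∀ (I : Ideal (R ⊗[k] Γ(C, T₀.U₁))), Hilb.IsPt (k := k) (A := Γ(C, T₀.U₁)) γ I →
      HPt c T₀ γ (Spec.map (CommRingCat.ofHom (algebraMap k R))) :=
  letI := algOpen c T₀.U₁
  letI := algTop (Spec.map (CommRingCat.ofHom (algebraMap k R)))
  fun I hI => ⟨Hilb.push k Γ(C, T₀.U₁) (gammaSpecAlgEquiv (k := k) R).toAlgHom I, hI.push _⟩

theorem HPt.framed_ofSpec (β : Fin γ → Γ(C, T₀.U₁)) (R : Type u) [CommRing R] [Algebra k R] :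
    letI := algOpen c T₀.U₁
    ∀ (I : Ideal (R ⊗[k] Γ(C, T₀.U₁))) (hI : Hilb.IsPt (k := k) (A := Γ(C, T₀.U₁)) γ I),
      Hilb.IsFramed β I → (HPt.ofSpec c T₀ R I hI).Framed β :=
  letI := algOpen c T₀.U₁
  letI := algTop (Spec.map (CommRingCat.ofHom (algebraMap k R)))
  fun _ _ h => Hilb.IsFramed.push h _

/-- the universal framed point over `Y β = Spec (H k β)` -/
def univPt (β : Fin γ → Γ(C, T₀.U₁)) : HPt c T₀ γ (hilby c T₀ β) :=
  letI := algOpen c T₀.U₁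
  HPt.ofSpec c T₀ (Hilb.H k β) (Hilb.univIdeal k β) (Hilb.univIdeal_isFramed k β).isPt

theorem framed_univPt (β : Fin γ → Γ(C, T₀.U₁)) : (univPt c T₀ β).Framed β :=
  letI := algOpen c T₀.U₁
  HPt.framed_ofSpec c T₀ β (Hilb.H k β) (Hilb.univIdeal k β) (Hilb.univIdeal_isFramed k β).isPt
    (Hilb.univIdeal_isFramed k β)

end

end Fermat.Agent.S25lib.Hub
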