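/-
S25lib / Hub / DegPull  (helper7)  --  Project L (S25): `DegG` at an arbitrary geometric point over the base and
its stability under pullback.
-/
import Fermat.Agent.S25lib.Hub.KB

set_option autoImplicit false

noncomputable section

universe u

open AlgebraicGeometry CategoryTheory CategoryTheory.Limits AlgebraicGeometry.RelPicard
  NeronModelInfra GoodReductionJacobian

namespace Fermat.Agent.S25lib.Hub

open Fermat.Agent.S26lib

variable {k : Type u} [Field k] {C : Scheme.{u}} {c : C ⟶ Spec (CommRingCat.of k)}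

section

variable {e : C} {Z : Curve.ZChart e} {T : Scheme.{u}} {t : T ⟶ Spec (CommRingCat.of k)}

/-- `DegG` at a geometric point given as a morphism over the base (with ANY structure map of `Spec K`) -/
theorem DegG.at {N : (pullback c t).Modules} (h : DegG Z t N)
    (K : Type u) [Field K] [IsAlgClosed K] (t₂ : Spec (CommRingCat.of K) ⟶ Spec (CommRingCat.of k))
    (χ : SchemeHomOver t₂ t)
    (hs : KSurj Z t₂ ((Scheme.Modules.pullback (baseChangeSnd c χ)).obj N)) :
    KB Z t₂ ((Scheme.Modules.pullback (baseChangeSnd c χ)).obj N) := by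
  obtain ⟨x, rfl⟩ := χ
  exact h K x hs

/-- the double pullback is the pullback along the composite -/
def pullPullIso {T' T'' : Scheme.{u}} {t' : T' ⟶ Spec (CommRingCat.of k)}
    {t'' : T'' ⟶ Spec (CommRingCat.of k)} (ψ : SchemeHomOver t' t) (χ : SchemeHomOver t'' t')
    (N : (pullback c t).Modules) :
    (Scheme.Modules.pullback (baseChangeSnd c χ)).obj
        ((Scheme.Modules.pullback (baseChangeSnd c ψ)).obj N) ≅
      (Scheme.Modules.pullback (baseChangeSnd c (postComp ψ χ))).obj N :=
  (Scheme.Modules.pullbackComp _ _).app N ≪≫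
    (Scheme.Modules.pullbackCongr (baseChangeSnd_comp c ψ χ)).app N

/-- **`DegG` is stable under pullback** -/
theorem DegG.pull {T' : Scheme.{u}} {t' : T' ⟶ Spec (CommRingCat.of k)}
    (ψ : SchemeHomOver t' t) {N : (pullback c t).Modules} (h : DegG Z t N) :
    DegG Z t' ((Scheme.Modules.pullback (baseChangeSnd c ψ)).obj N) := by
  intro K _ _ x hs
  have h1 := h.at K (x ≫ t') (postComp ψ (⟨x, rfl⟩ : SchemeHomOver (x ≫ t') t'))
    (hs.congr (pullPullIso ψ _ N))
  exact h1.congr (pullPullIso ψ _ N).symm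

/-- `DegG` of a pullback, at a geometric point over the base -/
theorem DegG.at_pull {T' : Scheme.{u}} {t' : T' ⟶ Spec (CommRingCat.of k)}
    (ψ : SchemeHomOver t' t) {N : (pullback c t).Modules} (h : DegG Z t N)
    (K : Type u) [Field K] [IsAlgClosed K] (t₂ : Spec (CommRingCat.of K) ⟶ Spec (CommRingCat.of k))
    (χ : SchemeHomOver t₂ t')
    (hs : KSurj Z t₂ ((Scheme.Modules.pullback (baseChangeSnd c χ)).obj
      ((Scheme.Modules.pullback (baseChangeSnd c ψ)).obj N))) :
    KB Z t₂ ((Scheme.Modules.pullback (baseChangeSnd c χ)).obj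
      ((Scheme.Modules.pullback (baseChangeSnd c ψ)).obj N)) :=
  (h.pull ψ).at K t₂ χ hs

/-- the `RLB` form: `DegG` passes to `N.pullbackAlong ψ` -/
theorem DegG.pullbackAlong {ε : SchemeHomOver (𝟙 (Spec (CommRingCat.of k))) c}
    {T' : Scheme.{u}} {t' : T' ⟶ Spec (CommRingCat.of k)}
    (ψ : SchemeHomOver t' t) {N : RLB c ε t} (h : DegG Z t N.L) :
    DegG Z t' (N.pullbackAlong ψ).L :=
  h.pull ψ

end

end Fermat.Agent.S25lib.Hub
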