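/-
S25lib / Hub / Core  (helper7)  --  Project L (S25): the CORE interface of the chart analysis and the formal
derivation of the fields `unique`, `coverB`, `locus` of `LayerInputs` from it.

`ChartCore c ε T₀ γ`:
* `Pt t`  = the points of the Hilbert functor of `C ∖ e` over an affine base (ideals `I ⊂ Γ(T,⊤) ⊗ Γ(C,U₁)` with
  locally free quotient of rank `γ`), `push ψ` = base change;
* `ODI t I` = the bundle `O(D_I)`, with `spull` (compatibility with base change), `kb`, `recog` (every bundle with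
  `KB` is an `O(D_I)`) and `inj` (`O(D_I) ≅ O(D_I') ⇒ I = I'`);
* `Framed β I` = `β` induces a basis of the quotient; `univ β` the universal framed ideal over `Y β = Spec (H k β)`;
  `classify`, `classify_inj` (representability of the framed functor), `framedLocus` (framedness is an open
  condition), `commonFrame` (two points over a field have a common frame).
-/
import Fermat.Agent.S25lib.Hub.LayerInst
import Fermat.Agent.S25lib.Hub.DegPull
import Fermat.Agent.S25lib.Glue.RLB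

set_option autoImplicit false

noncomputable section

universe u

open AlgebraicGeometry CategoryTheory CategoryTheory.Limits AlgebraicGeometry.RelPicard
  NeronModelInfra GoodReductionJacobian

namespace Fermat.Agent.S25lib.Hub

open Fermat.Agent.S26lib

variable {k : Type u} [Field k] {C : Scheme.{u}}
  (c : C ⟶ Spec (CommRingCat.of k)) (ε : Prod.KPt c)

/-- **the core of the chart analysis** -/
structure ChartCore (T₀ : Curve.PointChart c ε.pt) (γ : ℕ) where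
  /-- the points of the Hilbert functor over a base -/
  Pt : ∀ {T : Scheme.{u}} (_ : T ⟶ Spec (CommRingCat.of k)), Type u
  /-- base change of points -/
  push : ∀ {T T' : Scheme.{u}} {t : T ⟶ Spec (CommRingCat.of k)}
    {t' : T' ⟶ Spec (CommRingCat.of k)} (_ : SchemeHomOver t' t), Pt t → Pt t'
  /-- the bundle `O(D_I)` -/
  ODI : ∀ {T : Scheme.{u}} (_ : IsAffine T) (t : T ⟶ Spec (CommRingCat.of k)), Pt t → RLB c ε t
  /-- (S-pull) -/
  spull : ∀ {T T' : Scheme.{u}} (hT : IsAffine T) (hT' : IsAffine T')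
    {t : T ⟶ Spec (CommRingCat.of k)} {t' : T' ⟶ Spec (CommRingCat.of k)}
    (ψ : SchemeHomOver t' t) (I : Pt t),
    RLB.Iso ((ODI hT t I).pullbackAlong ψ) (ODI hT' t' (push ψ I))
  /-- (A): every bundle with `KB` is an `O(D_I)` -/
  recog : ∀ {T : Scheme.{u}} (hT : IsAffine T) (t : T ⟶ Spec (CommRingCat.of k)) (N : RLB c ε t),
    KB T₀.toZChart t N.L → ∃ I : Pt t, RLB.Iso N (ODI hT t I)
  /-- (U): under `KB`, `O(D_I)` determines `I` -/
  inj : ∀ {T : Scheme.{u}} (hT : IsAffine T) (t : T ⟶ Spec (CommRingCat.of k)) (I I' : Pt t),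
    KB T₀.toZChart t (ODI hT t I).L → RLB.Iso (ODI hT t I) (ODI hT t I') → I = I'
  /-- `β` frames the point -/
  Framed : (Fin γ → Γ(C, T₀.U₁)) → ∀ {T : Scheme.{u}} {t : T ⟶ Spec (CommRingCat.of k)}, Pt t → Prop
  /-- the universal framed point -/
  univ : ∀ β : Fin γ → Γ(C, T₀.U₁), Pt (hilby c T₀ β)
  framed_univ : ∀ β : Fin γ → Γ(C, T₀.U₁), Framed β (univ β)
  framed_push : ∀ (β : Fin γ → Γ(C, T₀.U₁)) {T T' : Scheme.{u}}
    {t : T ⟶ Spec (CommRingCat.of k)} {t' : T' ⟶ Spec (CommRingCat.of k)}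
    (ψ : SchemeHomOver t' t) (I : Pt t), Framed β I → Framed β (push ψ I)
  /-- representability of the framed functor: existence -/
  classify : ∀ (β : Fin γ → Γ(C, T₀.U₁)) {T : Scheme.{u}} (_ : IsAffine T)
    (t : T ⟶ Spec (CommRingCat.of k)) (I : Pt t), Framed β I →
    ∃ g : SchemeHomOver t (hilby c T₀ β), push g (univ β) = I
  /-- representability of the framed functor: uniqueness -/
  classify_inj : ∀ (β : Fin γ → Γ(C, T₀.U₁)) {T : Scheme.{u}} (_ : IsAffine T)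
    (t : T ⟶ Spec (CommRingCat.of k)) (g g' : SchemeHomOver t (hilby c T₀ β)),
    push g (univ β) = push g' (univ β) → g = g'
  /-- framedness is an open condition -/
  framedLocus : ∀ (β : Fin γ → Γ(C, T₀.U₁)) {T : Scheme.{u}} (_ : IsAffine T)
    (t : T ⟶ Spec (CommRingCat.of k)) (I : Pt t), ∃ U : T.Opens, ∀ {T' : Scheme.{u}}
      (_ : IsAffine T') (t' : T' ⟶ Spec (CommRingCat.of k)) (ψ : SchemeHomOver t' t),
      (Framed β (push ψ I) ↔ Set.range ψ.1.base ⊆ (U : Set T))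
  /-- two points over a field have a common frame -/
  commonFrame : ∀ (K : Type u) [Field K]
    (t : Spec (CommRingCat.of K) ⟶ Spec (CommRingCat.of k)) (I I' : Pt t),
    ∃ β : Fin γ → Γ(C, T₀.U₁), Framed β I ∧ Framed β I'

namespace ChartCore

variable {c ε} {T₀ : Curve.PointChart c ε.pt} {γ : ℕ} (𝓒 : ChartCore c ε T₀ γ)

/-- the bundle of the universal divisor over `Y β` -/
def OD (β : Fin γ → Γ(C, T₀.U₁)) : RLB c ε (hilby c T₀ β) :=
  𝓒.ODI (isAffine_hilbY c T₀ β) (hilby c T₀ β) (𝓒.univ β)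

theorem pullback_OD (β : Fin γ → Γ(C, T₀.U₁)) {T : Scheme.{u}} (hT : IsAffine T)
    {t : T ⟶ Spec (CommRingCat.of k)} (g : SchemeHomOver t (hilby c T₀ β)) :
    RLB.Iso ((𝓒.OD β).pullbackAlong g) (𝓒.ODI hT t (𝓒.push g (𝓒.univ β))) :=
  𝓒.spull (isAffine_hilbY c T₀ β) hT g (𝓒.univ β)

/-- a framed point is a pullback of the universal one -/
theorem exists_pullback_OD_iso (β : Fin γ → Γ(C, T₀.U₁)) {T : Scheme.{u}} (hT : IsAffine T)
    (t : T ⟶ Spec (CommRingCat.of k)) (I : 𝓒.Pt t) (hI : 𝓒.Framed β I) :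
    ∃ g : SchemeHomOver t (hilby c T₀ β), RLB.Iso ((𝓒.OD β).pullbackAlong g) (𝓒.ODI hT t I) := by
  obtain ⟨g, hg⟩ := 𝓒.classify β hT t I hI
  refine ⟨g, ?_⟩
  have := 𝓒.pullback_OD β hT g
  rwa [hg] at this

/-- **the field `unique`** -/
theorem unique (β : Fin γ → Γ(C, T₀.U₁)) {T : Scheme.{u}} (hT : IsAffine T)
    (t : T ⟶ Spec (CommRingCat.of k)) (g g' : SchemeHomOver t (hilby c T₀ β))
    (hkb : KB T₀.toZChart t ((𝓒.OD β).pullbackAlong g).L)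
    (h : RLB.Iso ((𝓒.OD β).pullbackAlong g) ((𝓒.OD β).pullbackAlong g')) : g = g' := by
  apply 𝓒.classify_inj β hT t
  apply 𝓒.inj hT t _ _ (hkb.congr (𝓒.pullback_OD β hT g).some)
  exact isoTrans (isoSymm (𝓒.pullback_OD β hT g)) (isoTrans h (𝓒.pullback_OD β hT g'))

/-- **the field `coverB`** -/
theorem coverB (K : Type u) [Field K]
    (t : Spec (CommRingCat.of K) ⟶ Spec (CommRingCat.of k)) (N N' : RLB c ε t)
    (hN : KB T₀.toZChart t N.L) (hN' : KB T₀.toZChart t N'.L) :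
    ∃ β : Fin γ → Γ(C, T₀.U₁),
      (∃ g : SchemeHomOver t (hilby c T₀ β), RLB.Iso ((𝓒.OD β).pullbackAlong g) N) ∧
      ∃ g' : SchemeHomOver t (hilby c T₀ β), RLB.Iso ((𝓒.OD β).pullbackAlong g') N' := by
  have hT : IsAffine (Spec (CommRingCat.of K)) := inferInstance
  obtain ⟨I, hI⟩ := 𝓒.recog hT t N hN
  obtain ⟨I', hI'⟩ := 𝓒.recog hT t N' hN'
  obtain ⟨β, hβ, hβ'⟩ := 𝓒.commonFrame K t I I'
  obtain ⟨g, hg⟩ := 𝓒.exists_pullback_OD_iso β hT t I hβ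
  obtain ⟨g', hg'⟩ := 𝓒.exists_pullback_OD_iso β hT t I' hβ'
  exact ⟨β, ⟨g, isoTrans hg (isoSymm hI)⟩, ⟨g', isoTrans hg' (isoSymm hI')⟩⟩

/-- pullbacks of a bundle along the two sides of a commutative square are isomorphic -/
theorem pullbackAlong_square {T T₁ T₂ T₃ : Scheme.{u}} {t : T ⟶ Spec (CommRingCat.of k)}
    {t₁ : T₁ ⟶ Spec (CommRingCat.of k)} {t₂ : T₂ ⟶ Spec (CommRingCat.of k)}
    {t₃ : T₃ ⟶ Spec (CommRingCat.of k)} (N : RLB c ε t)
    (ι : SchemeHomOver t₁ t) (ψ : SchemeHomOver t₂ t) (χ₁ : SchemeHomOver t₃ t₁)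
    (χ₂ : SchemeHomOver t₃ t₂) (h : χ₁.1 ≫ ι.1 = χ₂.1 ≫ ψ.1) :
    RLB.Iso ((N.pullbackAlong ι).pullbackAlong χ₁) ((N.pullbackAlong ψ).pullbackAlong χ₂) :=
  ⟨(Glue.pullbackAlongCompIso N ι χ₁ (postComp ι χ₁) rfl).symm ≪≫
    Glue.pullbackAlongCompIso N ψ χ₂ (postComp ι χ₁) h⟩

/-- the point of a pullback, computed along the two sides of a commutative square -/
theorem push_eq_of_square {T T₁ T₂ T₃ : Scheme.{u}} (hT₁ : IsAffine T₁)
    (hT₂ : IsAffine T₂) (hT₃ : IsAffine T₃) {t : T ⟶ Spec (CommRingCat.of k)}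
    {t₁ : T₁ ⟶ Spec (CommRingCat.of k)} {t₂ : T₂ ⟶ Spec (CommRingCat.of k)}
    {t₃ : T₃ ⟶ Spec (CommRingCat.of k)} (N : RLB c ε t)
    (ι : SchemeHomOver t₁ t) (ψ : SchemeHomOver t₂ t) (χ₁ : SchemeHomOver t₃ t₁)
    (χ₂ : SchemeHomOver t₃ t₂) (h : χ₁.1 ≫ ι.1 = χ₂.1 ≫ ψ.1)
    (I₁ : 𝓒.Pt t₁) (h₁ : RLB.Iso (N.pullbackAlong ι) (𝓒.ODI hT₁ t₁ I₁))
    (I₂ : 𝓒.Pt t₂) (h₂ : RLB.Iso (N.pullbackAlong ψ) (𝓒.ODI hT₂ t₂ I₂))
    (hkb : KB T₀.toZChart t₃ ((N.pullbackAlong ι).pullbackAlong χ₁).L) :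
    𝓒.push χ₁ I₁ = 𝓒.push χ₂ I₂ := by
  have a := 𝓒.spull hT₁ hT₃ χ₁ I₁
  have e₁' : RLB.Iso ((N.pullbackAlong ι).pullbackAlong χ₁)
      ((𝓒.ODI hT₁ t₁ I₁).pullbackAlong χ₁) :=
    RigidifiedLineBundle.pullbackAlong_congr χ₁ h₁
  apply 𝓒.inj hT₃ t₃ _ _ (hkb.congr (isoTrans e₁' a).some)
  have b := 𝓒.spull hT₂ hT₃ χ₂ I₂
  have e₁ : RLB.Iso ((N.pullbackAlong ι).pullbackAlong χ₁) ((𝓒.ODI hT₁ t₁ I₁).pullbackAlong χ₁) :=
    RigidifiedLineBundle.pullbackAlong_congr χ₁ h₁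
  have e₂ : RLB.Iso ((N.pullbackAlong ψ).pullbackAlong χ₂) ((𝓒.ODI hT₂ t₂ I₂).pullbackAlong χ₂) :=
    RigidifiedLineBundle.pullbackAlong_congr χ₂ h₂
  exact isoTrans (isoSymm a) (isoTrans (isoSymm e₁)
    (isoTrans (pullbackAlong_square N ι ψ χ₁ χ₂ h) (isoTrans e₂ b)))

/-- a point all of whose fibres are framed is a pullback of the universal one -/
theorem exists_pullback_OD_iso_of_fibres (β : Fin γ → Γ(C, T₀.U₁)) {T : Scheme.{u}}
    (hT : IsAffine T) (t : T ⟶ Spec (CommRingCat.of k)) (I : 𝓒.Pt t)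
    (h : ∀ x : T, 𝓒.Framed β (𝓒.push (⟨T.fromSpecResidueField x, rfl⟩ :
      SchemeHomOver (T.fromSpecResidueField x ≫ t) t) I)) :
    ∃ g : SchemeHomOver t (hilby c T₀ β), RLB.Iso ((𝓒.OD β).pullbackAlong g) (𝓒.ODI hT t I) := by
  obtain ⟨U, hU⟩ := 𝓒.framedLocus β hT t I
  have hUtop : ∀ x : T, x ∈ U := by
    intro x
    have h1 := (hU (inferInstance : IsAffine (Spec (T.residueField x))) _ _).mp (h x)
    apply h1
    rw [Scheme.range_fromSpecResidueField]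
    rfl
  have h2 : 𝓒.Framed β (𝓒.push (Glue.idOver t) I) :=
    (hU hT t (Glue.idOver t)).mpr (fun y _ => hUtop _)
  obtain ⟨g, hg⟩ := 𝓒.exists_pullback_OD_iso β hT t _ h2
  refine ⟨g, isoTrans hg (isoTrans (isoSymm (𝓒.spull hT hT (Glue.idOver t) I)) ?_)⟩
  exact ⟨Glue.pullbackAlongIdIso _ (Glue.idOver t) rfl⟩

section Locus

variable (hkb : ∀ {T : Scheme.{u}} (_ : IsAffine T) (t : T ⟶ Spec (CommRingCat.of k))
    (N : RLB c ε t), DegG T₀.toZChart t N.L → ∃ U : T.Opens, ∀ {T' : Scheme.{u}} (_ : IsAffine T')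
      (t' : T' ⟶ Spec (CommRingCat.of k)) (ψ : SchemeHomOver t' t),
      (KB T₀.toZChart t' (N.pullbackAlong ψ).L ↔ Set.range ψ.1.base ⊆ (U : Set T)))

/-- the data attached to an affine open `V` of the base inside the `KB`-locus `U₀` -/
structure LocData {T : Scheme.{u}} (t : T ⟶ Spec (CommRingCat.of k)) (N : RLB c ε t)
    (β : Fin γ → Γ(C, T₀.U₁)) (V : T.Opens) where
  aff : IsAffine (V : Scheme.{u})
  I : 𝓒.Pt (V.ι ≫ t)
  iso : RLB.Iso (N.pullbackAlong (⟨V.ι, rfl⟩ : SchemeHomOver (V.ι ≫ t) t)) (𝓒.ODI aff (V.ι ≫ t) I)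
  W : (V : Scheme.{u}).Opens
  spec : ∀ {T' : Scheme.{u}} (_ : IsAffine T') (t' : T' ⟶ Spec (CommRingCat.of k))
    (ψ : SchemeHomOver t' (V.ι ≫ t)),
    (𝓒.Framed β (𝓒.push ψ I) ↔ Set.range ψ.1.base ⊆ (W : Set V))

omit hkb in
theorem nonempty_locData {T : Scheme.{u}} (t : T ⟶ Spec (CommRingCat.of k))
    (N : RLB c ε t) (β : Fin γ → Γ(C, T₀.U₁)) (U₀ : T.Opens)
    (hU₀ : ∀ {T' : Scheme.{u}} (_ : IsAffine T')
      (t' : T' ⟶ Spec (CommRingCat.of k)) (ψ : SchemeHomOver t' t),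
      (KB T₀.toZChart t' (N.pullbackAlong ψ).L ↔ Set.range ψ.1.base ⊆ (U₀ : Set T)))
    (V : T.Opens) (hV : IsAffineOpen V) (hVU : V ≤ U₀) : Nonempty (LocData 𝓒 t N β V) := by
  have hkbV : KB T₀.toZChart (V.ι ≫ t)
      (N.pullbackAlong (⟨V.ι, rfl⟩ : SchemeHomOver (V.ι ≫ t) t)).L := by
    apply (hU₀ hV (V.ι ≫ t) ⟨V.ι, rfl⟩).mpr
    rw [Scheme.Opens.range_ι]
    exact hVU
  obtain ⟨I, hI⟩ := 𝓒.recog hV (V.ι ≫ t) _ hkbV
  obtain ⟨W, hW⟩ := 𝓒.framedLocus β hV (V.ι ≫ t) I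
  exact ⟨⟨hV, I, hI, W, hW⟩⟩

omit hkb in
/-- the fibre of a point of the Hilbert functor at `x'` is framed iff `ψ x'` lies in the framed locus of the chart -/
theorem LocData.framed_iff {T : Scheme.{u}} {t : T ⟶ Spec (CommRingCat.of k)} {N : RLB c ε t}
    {β : Fin γ → Γ(C, T₀.U₁)} {V : T.Opens} (D : LocData 𝓒 t N β V) {T' : Scheme.{u}}
    (hT' : IsAffine T') (t' : T' ⟶ Spec (CommRingCat.of k)) (ψ : SchemeHomOver t' t)
    (J : 𝓒.Pt t') (hJ : RLB.Iso (N.pullbackAlong ψ) (𝓒.ODI hT' t' J)) (x' : T')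
    (hx : ψ.1.base x' ∈ V) (U₀ : T.Opens)
    (hU₀ : ∀ {T' : Scheme.{u}} (_ : IsAffine T')
      (t' : T' ⟶ Spec (CommRingCat.of k)) (ψ : SchemeHomOver t' t),
      (KB T₀.toZChart t' (N.pullbackAlong ψ).L ↔ Set.range ψ.1.base ⊆ (U₀ : Set T)))
    (hVU : V ≤ U₀) :
    𝓒.Framed β (𝓒.push (⟨T'.fromSpecResidueField x', rfl⟩ :
        SchemeHomOver (T'.fromSpecResidueField x' ≫ t') t') J) ↔
      ψ.1.base x' ∈ V.ι ''ᵁ D.W := by
  have hrange : Set.range (T'.fromSpecResidueField x' ≫ ψ.1).base ⊆ Set.range V.ι.base := by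
    rw [Scheme.Opens.range_ι]
    rintro _ ⟨s, rfl⟩
    rw [Scheme.Hom.comp_base, TopCat.comp_app, Scheme.fromSpecResidueField_apply]
    exact hx
  have fac := IsOpenImmersion.lift_fac V.ι (T'.fromSpecResidueField x' ≫ ψ.1) hrange
  let χV : SchemeHomOver (T'.fromSpecResidueField x' ≫ t') (V.ι ≫ t) :=
    ⟨IsOpenImmersion.lift V.ι (T'.fromSpecResidueField x' ≫ ψ.1) hrange, by
      rw [← Category.assoc, fac, Category.assoc, ψ.2]⟩
  have hkbfib : KB T₀.toZChart (T'.fromSpecResidueField x' ≫ t')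
      ((N.pullbackAlong (⟨V.ι, rfl⟩ : SchemeHomOver (V.ι ≫ t) t)).pullbackAlong χV).L := by
    have h1 : KB T₀.toZChart (T'.fromSpecResidueField x' ≫ t')
        (N.pullbackAlong (postComp (⟨V.ι, rfl⟩ : SchemeHomOver (V.ι ≫ t) t) χV)).L := by
      apply (hU₀ (inferInstance : IsAffine (Spec (T'.residueField x'))) _ _).mpr
      rintro _ ⟨s, rfl⟩
      apply hVU
      show (χV.1 ≫ V.ι).base s ∈ V
      rw [Scheme.Hom.comp_base, TopCat.comp_app]
      exact (χV.1.base s).2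
    exact h1.congr (Glue.pullbackAlongCompIso N (⟨V.ι, rfl⟩ : SchemeHomOver (V.ι ≫ t) t) χV
      (postComp _ χV) rfl)
  have hpush := 𝓒.push_eq_of_square D.aff hT' (inferInstance : IsAffine (Spec (T'.residueField x')))
    N (⟨V.ι, rfl⟩ : SchemeHomOver (V.ι ≫ t) t) ψ χV
    (⟨T'.fromSpecResidueField x', rfl⟩ : SchemeHomOver (T'.fromSpecResidueField x' ≫ t') t')
    fac D.I D.iso J hJ hkbfib
  rw [← hpush, D.spec (inferInstance : IsAffine (Spec (T'.residueField x'))) _ χV]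
  have hpt : ∀ s : Spec (T'.residueField x'), V.ι.base (χV.1.base s) = ψ.1.base x' := by
    intro s
    have := congrArg (fun f => f.base s) fac
    simp only [Scheme.Hom.comp_base, TopCat.comp_app] at this
    rw [this, Scheme.fromSpecResidueField_apply]
  constructor
  · intro h
    obtain ⟨s₀, -⟩ : x' ∈ Set.range (T'.fromSpecResidueField x').base := by
      rw [Scheme.range_fromSpecResidueField]
      rfl
    exact ⟨χV.1.base s₀, h ⟨s₀, rfl⟩, hpt s₀⟩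
  · rintro ⟨w, hw, hwx⟩ _ ⟨s, rfl⟩
    have : χV.1.base s = w := V.ι.isOpenEmbedding.injective ((hpt s).trans hwx.symm)
    rw [this]
    exact hw

include hkb in
/-- **the field `locus`** -/
theorem locus (β : Fin γ → Γ(C, T₀.U₁)) {T : Scheme.{u}} (hT : IsAffine T)
    (t : T ⟶ Spec (CommRingCat.of k)) (N : RLB c ε t) (hdeg : DegG T₀.toZChart t N.L) :
    ∃ U : T.Opens, ∀ {T' : Scheme.{u}} (_ : IsAffine T')
      (t' : T' ⟶ Spec (CommRingCat.of k)) (ψ : SchemeHomOver t' t),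
      ((KB T₀.toZChart t' (N.pullbackAlong ψ).L ∧
          ∃ g : SchemeHomOver t' (hilby c T₀ β),
            RLB.Iso ((𝓒.OD β).pullbackAlong g) (N.pullbackAlong ψ)) ↔
        Set.range ψ.1.base ⊆ (U : Set T)) := by
  classical
  obtain ⟨U₀, hU₀⟩ := hkb hT t N hdeg
  have hD : ∀ V : {V : T.Opens // IsAffineOpen V ∧ V ≤ U₀}, Nonempty (LocData 𝓒 t N β V.1) :=
    fun V => nonempty_locData 𝓒 t N β U₀ hU₀ V.1 V.2.1 V.2.2
  let D : ∀ V : {V : T.Opens // IsAffineOpen V ∧ V ≤ U₀}, LocData 𝓒 t N β V.1 :=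
    fun V => (hD V).some
  have hUle : (⨆ V : {V : T.Opens // IsAffineOpen V ∧ V ≤ U₀}, V.1.ι ''ᵁ (D V).W) ≤ U₀ :=
    iSup_le fun V => (V.1.ι_image_le _).trans V.2.2
  refine ⟨⨆ V : {V : T.Opens // IsAffineOpen V ∧ V ≤ U₀}, V.1.ι ''ᵁ (D V).W, ?_⟩
  intro T' hT' t' ψ
  -- every point of `U₀` lies in an affine open inside `U₀`
  have hV : ∀ y ∈ U₀, ∃ V : {V : T.Opens // IsAffineOpen V ∧ V ≤ U₀}, y ∈ V.1 := by
    intro y hy
    obtain ⟨_, ⟨V, hV, rfl⟩, hyV, hVU⟩ := T.isBasis_affineOpens.exists_subset_of_mem_open hy U₀.2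
    exact ⟨⟨V, hV, hVU⟩, hyV⟩
  constructor
  · rintro ⟨hKB, g, hg⟩ _ ⟨x', rfl⟩
    have hx₀ : ψ.1.base x' ∈ U₀ := (hU₀ hT' t' ψ).mp hKB ⟨x', rfl⟩
    obtain ⟨V, hxV⟩ := hV _ hx₀
    have hJ : RLB.Iso (N.pullbackAlong ψ) (𝓒.ODI hT' t' (𝓒.push g (𝓒.univ β))) :=
      isoTrans (isoSymm hg) (𝓒.pullback_OD β hT' g)
    have h1 := ((D V).framed_iff 𝓒 hT' t' ψ _ hJ x' hxV U₀ hU₀ V.2.2).mp
      (𝓒.framed_push β _ _ (𝓒.framed_push β _ _ (𝓒.framed_univ β)))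
    exact (le_iSup (fun V : {V : T.Opens // IsAffineOpen V ∧ V ≤ U₀} => V.1.ι ''ᵁ (D V).W) V) h1
  · intro hψ
    have hKB : KB T₀.toZChart t' (N.pullbackAlong ψ).L :=
      (hU₀ hT' t' ψ).mpr (hψ.trans hUle)
    refine ⟨hKB, ?_⟩
    obtain ⟨J, hJ⟩ := 𝓒.recog hT' t' _ hKB
    have hfib : ∀ x' : T', 𝓒.Framed β (𝓒.push (⟨T'.fromSpecResidueField x', rfl⟩ :
        SchemeHomOver (T'.fromSpecResidueField x' ≫ t') t') J) := by
      intro x'
      have hx : ψ.1.base x' ∈ (⨆ V : {V : T.Opens // IsAffineOpen V ∧ V ≤ U₀},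
          V.1.ι ''ᵁ (D V).W) := hψ ⟨x', rfl⟩
      rw [TopologicalSpace.Opens.mem_iSup] at hx
      obtain ⟨V, hxV⟩ := hx
      exact ((D V).framed_iff 𝓒 hT' t' ψ J hJ x' (V.1.ι_image_le _ hxV) U₀ hU₀ V.2.2).mpr hxV
    obtain ⟨g, hg⟩ := 𝓒.exists_pullback_OD_iso_of_fibres β hT' t' J hfib
    exact ⟨g, isoTrans hg (isoSymm hJ)⟩

end Locus

/-- **the inputs of the layer from the core**, `kbOpen` and `mem` -/
def layerInputs [IsAlgClosed k] [IsProper c] [SmoothOfRelativeDimension 1 c] [IsIntegral C]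
    (hkb : ∀ {T : Scheme.{u}} (_ : IsAffine T) (t : T ⟶ Spec (CommRingCat.of k))
      (N : RLB c ε t), DegG T₀.toZChart t N.L → ∃ U : T.Opens, ∀ {T' : Scheme.{u}} (_ : IsAffine T')
        (t' : T' ⟶ Spec (CommRingCat.of k)) (ψ : SchemeHomOver t' t),
        (KB T₀.toZChart t' (N.pullbackAlong ψ).L ↔ Set.range ψ.1.base ⊆ (U : Set T)))
    (hmem : ∀ (i : EIdx c ε γ) (β : Fin γ → Γ(C, T₀.U₁)),
      InP (twistByList (invList i.E) (𝓒.OD β))) : LayerInputs c ε T₀ γ where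
  OD := 𝓒.OD
  unique := fun β _ hT t g g' h1 h2 => 𝓒.unique β hT t g g' h1 h2
  locus := fun β _ hT t N hdeg => 𝓒.locus hkb β hT t N hdeg
  kbOpen := hkb
  mem := hmem
  coverB := fun K _ t N N' h h' => 𝓒.coverB K t N N' h h'

end ChartCore

end Fermat.Agent.S25lib.Hub
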