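/-
S25lib / Hub / CoreInst  (helper7)  --  Project L (S25): the concrete `ChartCore`: points `HPt` (helper5's `Hilb`),
bundle `O(D_I)` = helper6's `Sec.ODI`, `spull` = helper6's `ODI_pullbackAlong_iso`.  The remaining fields
(`recog`, `inj`, `classify`, `classify_inj`, `framedLocus`, `commonFrame`) are hypotheses, in concrete form.
-/
import Fermat.Agent.S25lib.Hub.Core
import Fermat.Agent.S25lib.Hub.HilbPt
import Fermat.Agent.S25lib.Sec.ODI
import Fermat.Agent.S25lib.Ideal.Invertible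

set_option autoImplicit false

noncomputable section

universe u

open AlgebraicGeometry CategoryTheory CategoryTheory.Limits TensorProduct AlgebraicGeometry.RelPicard
  NeronModelInfra GoodReductionJacobian

namespace Fermat.Agent.S25lib.Hub

open Fermat.Agent.S26lib

variable {k : Type u} [Field k] [IsAlgClosed k] {C : Scheme.{u}}
  (c : C ⟶ Spec (CommRingCat.of k)) [IsProper c] [SmoothOfRelativeDimension 1 c] [IsIntegral C]
  (ε : Prod.KPt c) (T₀ : Curve.PointChart' c ε.pt) {γ : ℕ}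

theorem kpt_base_eq (y : Spec (CommRingCat.of k)) : ε.1 y = ε.pt := by
  have hy : y = Prod.KPt.o k := Subsingleton.elim _ _
  rw [hy]
  rfl

/-- points of the Hilbert functor of the punctured curve are invertible ideals -/
theorem isInvIdeal_of_hPt {T : Scheme.{u}} (t : T ⟶ Spec (CommRingCat.of k))
    (I : HPt c T₀.toPointChart γ t) :
    letI := algOpen c T₀.U₁
    letI := algTop t
    Sec.IsInvIdeal I.1 := by
  letI := algOpen c T₀.U₁
  letI := algTop t
  haveI := finiteType_algOpen c T₀.toPointChart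
  have hA : ¬ Module.Finite k Γ(C, T₀.U₁) := T₀.toPointChart.not_finite₁ c
  have hD : ∀ (K : Type u) [Field K] [Algebra k K], IsDedekindDomain (K ⊗[k] Γ(C, T₀.U₁)) :=
    fun K _ _ => T₀.toPointChart.isDedekindDomain_tensor₁ c ε K
  haveI : Module.Invertible (Γ(T, ⊤) ⊗[k] Γ(C, T₀.U₁)) I.1 := Ideal.invertible_of_isPt' hA hD I.2
  exact Sec.isInvIdeal_of_invertible

/-- **the bundle `O(D_I)`** of a point of the Hilbert functor over an affine base -/
def odi {T : Scheme.{u}} (hT : IsAffine T) (t : T ⟶ Spec (CommRingCat.of k))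
    (I : HPt c T₀.toPointChart γ t) : RLB c ε t :=
  letI := algOpen c T₀.U₁
  letI := algTop t
  @Sec.ODI k _ C T c t ε.pt T₀.toZChart hT (algOpen c T₀.U₁) rfl (algTop t) rfl T₀.a T₀.ainv
    T₀.mul_ainv T₀.ainv_mem ε (kpt_base_eq c ε) I.1 (isInvIdeal_of_hPt c ε T₀ t I) I.2.finite

/-- **(S-pull)** -/
theorem odi_spull {T T' : Scheme.{u}} (hT : IsAffine T) (hT' : IsAffine T')
    {t : T ⟶ Spec (CommRingCat.of k)} {t' : T' ⟶ Spec (CommRingCat.of k)}
    (ψ : SchemeHomOver t' t) (I : HPt c T₀.toPointChart γ t) :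
    RLB.Iso ((odi c ε T₀ hT t I).pullbackAlong ψ) (odi c ε T₀ hT' t' (I.push ψ)) :=
  letI := algOpen c T₀.U₁
  letI := algTop t
  letI := algTop t'
  @Sec.ODI_pullbackAlong_iso k _ C T c t ε.pt T₀.toZChart hT (algOpen c T₀.U₁) rfl (algTop t) rfl
    T₀.a T₀.ainv T₀.mul_ainv T₀.ainv_mem ε (kpt_base_eq c ε) T' hT' t' ψ (algTop t') rfl
    (appTopAlg ψ) (fun r => appTopAlg_appLE ψ r) I.1 (isInvIdeal_of_hPt c ε T₀ t I) I.2.finite
    (isInvIdeal_of_hPt c ε T₀ t' (I.push ψ)) (I.push ψ).2.finite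

/-- **the concrete core**, from the analysis (A) `hrecog`, (U) `hinj` and the four facts on the framed charts of
the Hilbert functor -/
def chartCore
    (hrecog : ∀ {T : Scheme.{u}} (hT : IsAffine T) (t : T ⟶ Spec (CommRingCat.of k)) (N : RLB c ε t),
      KB T₀.toZChart t N.L → ∃ I : HPt c T₀.toPointChart γ t, RLB.Iso N (odi c ε T₀ hT t I))
    (hinj : ∀ {T : Scheme.{u}} (hT : IsAffine T) (t : T ⟶ Spec (CommRingCat.of k))
      (I I' : HPt c T₀.toPointChart γ t), KB T₀.toZChart t (odi c ε T₀ hT t I).L →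
      RLB.Iso (odi c ε T₀ hT t I) (odi c ε T₀ hT t I') → I = I')
    (hclassify : ∀ (β : Fin γ → Γ(C, T₀.U₁)) {T : Scheme.{u}} (_ : IsAffine T)
      (t : T ⟶ Spec (CommRingCat.of k)) (I : HPt c T₀.toPointChart γ t), I.Framed β →
      ∃ g : SchemeHomOver t (hilby c T₀.toPointChart β), (univPt c T₀.toPointChart β).push g = I)
    (hclassify_inj : ∀ (β : Fin γ → Γ(C, T₀.U₁)) {T : Scheme.{u}} (_ : IsAffine T)
      (t : T ⟶ Spec (CommRingCat.of k)) (g g' : SchemeHomOver t (hilby c T₀.toPointChart β)),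
      (univPt c T₀.toPointChart β).push g = (univPt c T₀.toPointChart β).push g' → g = g')
    (hframedLocus : ∀ (β : Fin γ → Γ(C, T₀.U₁)) {T : Scheme.{u}} (_ : IsAffine T)
      (t : T ⟶ Spec (CommRingCat.of k)) (I : HPt c T₀.toPointChart γ t), ∃ U : T.Opens,
      ∀ {T' : Scheme.{u}} (_ : IsAffine T') (t' : T' ⟶ Spec (CommRingCat.of k))
        (ψ : SchemeHomOver t' t), ((I.push ψ).Framed β ↔ Set.range ψ.1.base ⊆ (U : Set T)))
    (hcommonFrame : ∀ (K : Type u) [Field K]
      (t : Spec (CommRingCat.of K) ⟶ Spec (CommRingCat.of k)) (I I' : HPt c T₀.toPointChart γ t),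
      ∃ β : Fin γ → Γ(C, T₀.U₁), I.Framed β ∧ I'.Framed β) :
    ChartCore c ε T₀.toPointChart γ where
  Pt := fun t => HPt c T₀.toPointChart γ t
  push := fun ψ I => I.push ψ
  ODI := fun hT t I => odi c ε T₀ hT t I
  spull := fun hT hT' _ _ ψ I => odi_spull c ε T₀ hT hT' ψ I
  recog := hrecog
  inj := hinj
  Framed := fun β _ _ I => I.Framed β
  univ := univPt c T₀.toPointChart
  framed_univ := framed_univPt c T₀.toPointChart
  framed_push := fun β _ _ _ _ ψ I h => HPt.framed_push β ψ I h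
  classify := hclassify
  classify_inj := hclassify_inj
  framedLocus := hframedLocus
  commonFrame := hcommonFrame

end Fermat.Agent.S25lib.Hub
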