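/-
S25lib / Hub / Rigidify  (helper7)  --  Project L (S25): the rigidifying correction.
Every invertible module `N` on `C ×_k T` becomes a rigidified line bundle `M = N ⊗ p^*(σ^*N)⁻¹` without changing
the fibres over field points (`exists_rlb_fibrewise_iso`).
-/
import Fermat.Agent.S25lib.Hub.TwistRLB
import Fermat.Agent.S25lib.Mod.TwistUnit
import Fermat.Agent.S25lib.Glue.Ext

set_option autoImplicit false

noncomputable section

universe u

open AlgebraicGeometry CategoryTheory CategoryTheory.Limits AlgebraicGeometry.RelPicard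
  NeronModelInfra GoodReductionJacobian

namespace Fermat.Agent.S25lib.Hub

variable {k : Type u} [Field k] {C : Scheme.{u}} {c : C ⟶ Spec (CommRingCat.of k)}
  {ε : SchemeHomOver (𝟙 (Spec (CommRingCat.of k))) c}

/-- an invertible module on the spectrum of a field is trivial -/
theorem nonempty_iso_unit_of_field {K : Type u} [Field K]
    {L : (Spec (CommRingCat.of K)).Modules} (hL : Scheme.Modules.IsInvertible L) :
    Nonempty (L ≅ Mod.unitM (Spec (CommRingCat.of K))) := by
  obtain ⟨U, hxU, s, hs⟩ := (Mod.isInvertible_iff_exists_isGen L).mp hL (IsLocalRing.closedPoint K)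
  have hU : U = ⊤ := by
    rw [eq_top_iff]
    intro x _
    have : x = IsLocalRing.closedPoint K := Subsingleton.elim _ _
    rw [this]
    exact hxU
  subst hU
  exact ⟨(Mod.isoOfGen L s hs).symm⟩

/-- the cocycle of a pullback to a field-valued point is trivial -/
theorem nonempty_toModule_iso_unit_of_field {T : Scheme.{u}} (d : Mod.Cocycle T T)
    {K : Type u} [Field K] {X : Scheme.{u}} (π : X ⟶ Spec (CommRingCat.of K))
    (s : Spec (CommRingCat.of K) ⟶ T) :
    Nonempty (((d.pull s).pull π).toModule ≅ Mod.unitM X) := by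
  obtain ⟨e1⟩ := nonempty_iso_unit_of_field (d.pull s).isInvertible_toModule
  obtain ⟨e2, -⟩ := Mod.Cocycle.exists_pullback_iso π (d.pull s)
  exact ⟨e2.symm ≪≫ (Scheme.Modules.pullback π).mapIso e1 ≪≫ Scheme.Modules.pullbackUnitIso π⟩

/-- **the rigidifying correction**: every invertible module on `C ×_k T` is fibrewise (over field points)
isomorphic to a rigidified line bundle -/
theorem exists_rlb_fibrewise_iso {T : Scheme.{u}} (t : T ⟶ Spec (CommRingCat.of k))
    (N : (pullback c t).Modules) (hN : Scheme.Modules.IsInvertible N) :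
    ∃ M : RLB c ε t, ∀ (K : Type u) [Field K]
      (y : Spec (CommRingCat.of K) ⟶ Spec (CommRingCat.of k)) (s : SchemeHomOver y t),
      Nonempty ((M.pullbackAlong s).L ≅ (Scheme.Modules.pullback (baseChangeSnd c s)).obj N) := by
  have hNg := Mod.locGen_of_isInvertible hN
  set σ := rigSection c t ε with hσ
  set p := pullback.snd c t with hp
  have hσp : σ ≫ p = 𝟙 T := Glue.rigSection_snd c ε t
  obtain ⟨d, ⟨ed⟩⟩ := Mod.exists_cocycle_iso_of_isInvertible (hN.pullback σ)
  -- the correcting cocycle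
  let 𝔠 : Mod.Cocycle (pullback c t) T := (d.pull p).inv
  have hpullσ : 𝔠.pull σ = (d.pull (𝟙 T)).inv := by
    show ((d.pull p).inv).pull σ = _
    rw [Mod.Cocycle.pull_inv, Mod.Cocycle.pull_pull]
    exact congrArg Mod.Cocycle.inv (Mod.Cocycle.pull_congr d hσp)
  refine ⟨⟨𝔠.twist N, (Mod.isInvertible_iff_exists_isGen _).mpr (Mod.LocGen.twist _ hNg), ?_⟩, ?_⟩
  · -- the rigidification
    obtain ⟨e1⟩ := Mod.Cocycle.nonempty_pullback_twist_iso σ 𝔠 hNg
    rw [hpullσ] at e1
    obtain ⟨e2, -⟩ := Mod.Cocycle.exists_pullback_iso (𝟙 T) d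
    -- `σ^*N ≅ (d.pull 𝟙).toModule`
    have φ : (Scheme.Modules.pullback σ).obj N ≅ (d.pull (𝟙 T)).toModule :=
      ed ≪≫ ((Scheme.Modules.pullbackId T).app d.toModule).symm ≪≫ e2
    obtain ⟨e3⟩ := (d.pull (𝟙 T)).nonempty_inv_twist_toModule_iso
    exact ⟨e1 ≪≫ (d.pull (𝟙 T)).inv.twistIso φ ≪≫ e3⟩
  · -- the fibres
    intro K _ y s
    set b := baseChangeSnd c s with hb
    have hbp : b ≫ p = pullback.snd c y ≫ s.1 := by
      rw [hb, hp]
      unfold baseChangeSnd
      rw [pullback.lift_snd]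
    obtain ⟨e1⟩ := Mod.Cocycle.nonempty_pullback_twist_iso b 𝔠 hNg
    have hpullb : 𝔠.pull b = ((d.pull s.1).pull (pullback.snd c y)).inv := by
      show ((d.pull p).inv).pull b = _
      rw [Mod.Cocycle.pull_inv, Mod.Cocycle.pull_pull, Mod.Cocycle.pull_pull]
      exact congrArg Mod.Cocycle.inv (Mod.Cocycle.pull_congr d hbp)
    rw [hpullb] at e1
    obtain ⟨e2⟩ := nonempty_toModule_iso_unit_of_field d (pullback.snd c y) s.1
    obtain ⟨e3⟩ := ((d.pull s.1).pull (pullback.snd c y)).nonempty_inv_twist_iso_of_toModule_iso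
      (hNg.pullback b) e2
    exact ⟨e1 ≪≫ e3⟩

end Fermat.Agent.S25lib.Hub
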