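/-
S25lib / Hub / Assemble  (helper7)  --  Project L (S25): the final assembly.
From a `KBLayer`, the extension and representability statements (block `Glue/**`), (RIG) and the
properness/connectedness statement (block `Abel/**`), the S25 conclusion.
-/
import Fermat.Agent.S25lib.Hub.Layer
import Fermat.Agent.S25lib.Hilb.SchemeSmooth
import Fermat.Agent.S25lib.Sep.Main

set_option autoImplicit false

noncomputable section

universe u

open AlgebraicGeometry CategoryTheory CategoryTheory.Limits AlgebraicGeometry.RelPicard
  NeronModelInfra GoodReductionJacobian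

namespace Fermat.Agent.S25lib.Hub

variable {k : Type u} [Field k] {C : Scheme.{u}} {c : C ⟶ Spec (CommRingCat.of k)}
  {ε : SchemeHomOver (𝟙 (Spec (CommRingCat.of k))) c}

/-- **(Abel)**: a separated representing scheme, locally of finite type, is proper and geometrically connected -/
def AbelStatement (c : C ⟶ Spec (CommRingCat.of k))
    (ε : SchemeHomOver (𝟙 (Spec (CommRingCat.of k))) c) : Prop :=
  ∀ (D : RelativePic0Designation k c), RepresentsRelSubPic c ε (algEquivZeroCut c ε) D →
    IsSeparated D.toBase → LocallyOfFiniteType D.toBase →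
    IsProper D.toBase ∧ GeometricallyConnected D.toBase

theorem isSeparated_affChart {e : C} {Z : Curve.ZChart e} (𝓛 : KBLayer c ε Z) (i : 𝓛.I) (b : 𝓛.B) :
    IsSeparated (𝓛.affChart i b).v := by
  have h0 : IsAffine (𝓛.Y b) := 𝓛.isAffine b
  have h1 : IsSeparated (𝓛.y b) := inferInstance
  have h2 : IsSeparated (𝓛.preChart i b).VO.ι := inferInstance
  exact MorphismProperty.comp_mem @IsSeparated (𝓛.preChart i b).VO.ι (𝓛.y b) h2 h1

/-- **the S25 conclusion from the layer and the block statements** -/
theorem s25Statement_of_layer {e : C} {Z : Curve.ZChart e} (𝓛 : KBLayer c ε Z)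
    (hrig : RigApp c) (hExt : ExtStatement c ε) (hRep : RepStatement c ε)
    (hAbel : AbelStatement c ε) : S25Statement c ε := by
  obtain ⟨D, h, j, hj, hcov, hiso⟩ := hRep hrig (𝓛.chartCover hExt hrig)
  have hsm : Smooth D.toBase := by
    have := hj
    refine Hilb.smooth_of_openImmersion_cover D.toBase
      (fun p => ((𝓛.chartCover hExt hrig).chart p).V) (fun p => (j p).1) hcov (fun p => ?_)
    rw [(j p).2]
    exact 𝓛.smooth_chartCover hExt hrig p
  have hsep : IsSeparated D.toBase :=
    Sep.isSeparated_of_cover2 (𝓛.chartCover hExt hrig) D h j hj hiso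
      (fun p => isSeparated_affChart 𝓛 p.1 p.2) (𝓛.chartCover_cover2 hExt hrig)
  have hlft : LocallyOfFiniteType D.toBase := inferInstance
  obtain ⟨hp, hc⟩ := hAbel D h hsep hlft
  exact ⟨D, ⟨h⟩, hsm, hp, hc⟩

end Fermat.Agent.S25lib.Hub
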