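/-
S25lib / Hub / Final  (helper7)  --  Project L (S25): the S25 conclusion under the hypotheses of S25, from a
`KBLayer` (chart analysis) and the `AbelStatement` (properness and connectedness); (RIG) is helper9's `rig_app`,
the extension and representability statements are helper2's.
-/
import Fermat.Agent.S25lib.Hub.Assemble
import Fermat.Agent.S25lib.Glue.Statements
import Fermat.Agent.S25lib.Polar.Rig

set_option autoImplicit false

noncomputable section

universe u

open AlgebraicGeometry CategoryTheory CategoryTheory.Limits AlgebraicGeometry.RelPicard
  NeronModelInfra GoodReductionJacobian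

namespace Fermat.Agent.S25lib.Hub

variable {k : Type u} [Field k] [IsAlgClosed k] {C : Scheme.{u}} (c : C ⟶ Spec (CommRingCat.of k))
  [IsProper c] [IsIntegral C] (ε : SchemeHomOver (𝟙 (Spec (CommRingCat.of k))) c)

/-- (RIG) under the hypotheses of S25 -/
theorem rigApp_of_isProper : RigApp c := by
  intro T t U
  have h1 : CompactSpace C := QuasiCompact.compactSpace_of_compactSpace c
  have h2 : QuasiSeparatedSpace C := quasiSeparatedSpace_of_quasiSeparated c
  exact Polar.rig_app c t U

/-- **S25 from the chart analysis and the Abel statement** -/
theorem s25Statement_of_layer_of_abel {e : C} {Z : Curve.ZChart e} (𝓛 : KBLayer c ε Z)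
    (hAbel : AbelStatement c ε) : S25Statement c ε :=
  s25Statement_of_layer 𝓛 (rigApp_of_isProper c) (Glue.extStatement c ε) (Glue.repStatement c ε) hAbel

end Fermat.Agent.S25lib.Hub
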