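/-
S25lib / Hub / Top  (helper7)  --  Project L (S25): S25 from the four remaining inputs:
`LayerInputs` (chart analysis), `PDeg`, `UniformGenus` (helper9) and `AbelStatement` (helper5).
-/
import Fermat.Agent.S25lib.Hub.LayerInst
import Fermat.Agent.S25lib.Hub.Final

set_option autoImplicit false

noncomputable section

universe u

open AlgebraicGeometry CategoryTheory CategoryTheory.Limits AlgebraicGeometry.RelPicard
  NeronModelInfra GoodReductionJacobian

namespace Fermat.Agent.S25lib.Hub

open Fermat.Agent.S26lib

variable {k : Type u} [Field k] [IsAlgClosed k] {C : Scheme.{u}}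
  (c : C ⟶ Spec (CommRingCat.of k)) [IsProper c] [SmoothOfRelativeDimension 1 c] [IsIntegral C]
  (ε : Prod.KPt c)

/-- **S25 from the inputs of the blocks** -/
theorem s25Statement_of_inputs {T₀ : Curve.PointChart c ε.pt} {γ : ℕ}
    (inp : LayerInputs c ε T₀ γ) (hP : Polar.PDeg c) (hγ : Polar.UniformGenus c γ)
    (hAbel : AbelStatement c ε) : S25Statement c ε :=
  s25Statement_of_layer_of_abel c ε (inp.layer hP hγ) hAbel

end Fermat.Agent.S25lib.Hub
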