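/-
S25lib / Hub / Top2  (helper7)  --  Project L (S25): S25 from the CORE inputs:
(A) `hrecog`, (U) `hinj`, the four facts on the framed charts, `mem`, `PDeg`, `UniformGenus`, `AbelStatement`.
`kbOpen` is helper4's `AffBC.kbOpen_pointChart`.
-/
import Fermat.Agent.S25lib.Hub.CoreInst
import Fermat.Agent.S25lib.Hub.Top
import Fermat.Agent.S25lib.AffBC.KBOpen

set_option autoImplicit false

noncomputable section

universe u

open AlgebraicGeometry CategoryTheory CategoryTheory.Limits TensorProduct AlgebraicGeometry.RelPicard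
  NeronModelInfra GoodReductionJacobian

namespace Fermat.Agent.S25lib.Hub

open Fermat.Agent.S26lib

variable {k : Type u} [Field k] [IsAlgClosed k] {C : Scheme.{u}}
  (c : C ⟶ Spec (CommRingCat.of k)) [IsProper c] [SmoothOfRelativeDimension 1 c] [IsIntegral C]
  (ε : Prod.KPt c) (T₀ : Curve.PointChart' c ε.pt) {γ : ℕ}

/-- the field `kbOpen` (helper4) -/
theorem kbOpen_of_pointChart {T : Scheme.{u}} (hT : IsAffine T) (t : T ⟶ Spec (CommRingCat.of k))
    (N : RLB c ε t) (hdeg : DegG T₀.toZChart t N.L) :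
    ∃ U : T.Opens, ∀ {T' : Scheme.{u}} (_ : IsAffine T') (t' : T' ⟶ Spec (CommRingCat.of k))
      (ψ : SchemeHomOver t' t),
      (KB T₀.toZChart t' (N.pullbackAlong ψ).L ↔ Set.range ψ.1.base ⊆ (U : Set T)) :=
  AffBC.kbOpen_pointChart ε T₀.toPointChart
    (AffBC.ZAdapt.regular ε T₀.toZChart (T₀.toPointChart.z_ne_zero c ε)) hT t N hdeg

/-- **S25 from the core inputs** -/
theorem s25Statement_of_core
    (hrecog : ∀ {T : Scheme.{u}} (hT : IsAffine T) (t : T ⟶ Spec (CommRingCat.of k)) (N : RLB c ε t),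
      KB T₀.toZChart t N.L → ∃ I : HPt c T₀.toPointChart γ t, RLB.Iso N (odi c ε T₀ hT t I))
    (hinj : ∀ {T : Scheme.{u}} (hT : IsAffine T) (t : T ⟶ Spec (CommRingCat.of k))
      (I I' : HPt c T₀.toPointChart γ t), KB T₀.toZChart t (odi c ε T₀ hT t I).L →
      RLB.Iso (odi c ε T₀ hT t I) (odi c ε T₀ hT t I') → I = I')
    (hclassify : ∀ (β : Fin γ → Γ(C, T₀.U₁)) {T : Scheme.{u}} (_ : IsAffine T)
      (t : T ⟶ Spec (CommRingCat.of k)) (I : HPt c T₀.toPointChart γ t), I.Framed β →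
      ∃ g : SchemeHomOver t (hilby c T₀.toPointChart β), (univPt c T₀.toPointChart β).push g = I)
    (hclassify_inj : ∀ (β : Fin γ → Γ(C, T₀.U₁)) {T : Scheme.{u}} (_ : IsAffine T)
      (t : T ⟶ Spec (CommRingCat.of k)) (g g' : SchemeHomOver t (hilby c T₀.toPointChart β)),
      (univPt c T₀.toPointChart β).push g = (univPt c T₀.toPointChart β).push g' → g = g')
    (hframedLocus : ∀ (β : Fin γ → Γ(C, T₀.U₁)) {T : Scheme.{u}} (_ : IsAffine T)
      (t : T ⟶ Spec (CommRingCat.of k)) (I : HPt c T₀.toPointChart γ t), ∃ U : T.Opens,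
      ∀ {T' : Scheme.{u}} (_ : IsAffine T') (t' : T' ⟶ Spec (CommRingCat.of k))
        (ψ : SchemeHomOver t' t), ((I.push ψ).Framed β ↔ Set.range ψ.1.base ⊆ (U : Set T)))
    (hcommonFrame : ∀ (K : Type u) [Field K]
      (t : Spec (CommRingCat.of K) ⟶ Spec (CommRingCat.of k)) (I I' : HPt c T₀.toPointChart γ t),
      ∃ β : Fin γ → Γ(C, T₀.U₁), I.Framed β ∧ I'.Framed β)
    (hmem : ∀ (i : EIdx c ε γ) (β : Fin γ → Γ(C, T₀.U₁)),
      InP (twistByList (invList i.E)
        (odi c ε T₀ (isAffine_hilbY c T₀.toPointChart β) (hilby c T₀.toPointChart β)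
          (univPt c T₀.toPointChart β))))
    (hP : Polar.PDeg c) (hγ : Polar.UniformGenus c γ) (hAbel : AbelStatement c ε) :
    S25Statement c ε :=
  s25Statement_of_inputs c ε
    ((chartCore c ε T₀ hrecog hinj hclassify hclassify_inj hframedLocus hcommonFrame).layerInputs
      (fun hT t N hdeg => kbOpen_of_pointChart c ε T₀ hT t N hdeg) hmem) hP hγ hAbel

end Fermat.Agent.S25lib.Hub
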