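/-
S25lib / Hub / Top3  (helper7)  --  Project L (S25): S25 from the inputs still missing, everything else wired:
`framedLocus`, `commonFrame`, `kbOpen` (helper4), `PDeg`, `UniformGenus` (helper9), the atlas (helper8).
Remaining: (A) `hrecog`, (U) `hinj` (helper3), `hclassify`, `hclassify_inj` (helper2), `hmem` (helper8),
`hAbel` (helper5).
-/
import Fermat.Agent.S25lib.Hub.Top2
import Fermat.Agent.S25lib.AffBC.HilbLocus
import Fermat.Agent.S25lib.Polar.PDeg
import Fermat.Agent.S25lib.Polar.UGenus

set_option autoImplicit false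

noncomputable section

universe u

open AlgebraicGeometry CategoryTheory CategoryTheory.Limits TensorProduct AlgebraicGeometry.RelPicard
  NeronModelInfra GoodReductionJacobian

namespace Fermat.Agent.S25lib.Hub

open Fermat.Agent.S26lib

variable {k : Type u} [Field k] [IsAlgClosed k] {C : Scheme.{u}}
  (c : C ⟶ Spec (CommRingCat.of k)) [IsProper c] [SmoothOfRelativeDimension 1 c] [IsIntegral C]
  (ε : Prod.KPt c)

/-- the atlas adapted to the base point -/
def atlas : Curve.PointChart' c ε.pt := Classical.choice (Curve.nonempty_pointChart' c ε)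

variable (T₀ : Curve.PointChart' c ε.pt) {γ : ℕ}

/-- **S25 from the remaining inputs** (for any atlas `T₀` and any `γ` with `UniformGenus c γ`) -/
theorem s25Statement_of_remaining (hγ : Polar.UniformGenus c γ)
    (hrecog : ∀ {T : Scheme.{u}} (hT : IsAffine T) (t : T ⟶ Spec (CommRingCat.of k)) (N : RLB c ε t),
      KB T₀.toZChart t N.L →
      ∃ I : HPt c T₀.toPointChart γ t, RLB.Iso N (odi c ε T₀ hT t I))
    (hinj : ∀ {T : Scheme.{u}} (hT : IsAffine T) (t : T ⟶ Spec (CommRingCat.of k))
      (I I' : HPt c T₀.toPointChart γ t),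
      KB T₀.toZChart t (odi c ε T₀ hT t I).L →
      RLB.Iso (odi c ε T₀ hT t I) (odi c ε T₀ hT t I') → I = I')
    (hclassify : ∀ (β : Fin γ → Γ(C, T₀.U₁)) {T : Scheme.{u}} (_ : IsAffine T)
      (t : T ⟶ Spec (CommRingCat.of k)) (I : HPt c T₀.toPointChart γ t),
      I.Framed β → ∃ g : SchemeHomOver t (hilby c T₀.toPointChart β),
        (univPt c T₀.toPointChart β).push g = I)
    (hclassify_inj : ∀ (β : Fin γ → Γ(C, T₀.U₁)) {T : Scheme.{u}} (_ : IsAffine T)
      (t : T ⟶ Spec (CommRingCat.of k))
      (g g' : SchemeHomOver t (hilby c T₀.toPointChart β)),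
      (univPt c T₀.toPointChart β).push g = (univPt c T₀.toPointChart β).push g' →
        g = g')
    (hmem : ∀ (i : EIdx c ε γ) (β : Fin γ → Γ(C, T₀.U₁)),
      InP (twistByList (invList i.E)
        (odi c ε T₀ (isAffine_hilbY c T₀.toPointChart β)
          (hilby c T₀.toPointChart β) (univPt c T₀.toPointChart β))))
    (hAbel : AbelStatement c ε) :
    S25Statement c ε :=
  s25Statement_of_core c ε T₀ hrecog hinj hclassify hclassify_inj
    (fun β _ hT t I => AffBC.framedLocus β hT t I)
    (fun K _ t I I' => AffBC.commonFrame K t I I')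
    hmem (Polar.pdeg c) hγ hAbel

end Fermat.Agent.S25lib.Hub
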