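/-
S25lib / Hub / Top4  (helper7)  --  Project L (S25): S25 from the three inputs still missing:
(A) `hrecog`, (U) `hinj` (helper3) and `hmem` (helper8).  Wired here: `classify`, `classify_inj` (helper2),
`AbelStatement` (helper5), and everything of `Hub/Top3`.
-/
import Fermat.Agent.S25lib.Hub.Top3
import Fermat.Agent.S25lib.Glue.HilbClassify
import Fermat.Agent.S25lib.Abel.Final

set_option autoImplicit false

noncomputable section

universe u

open AlgebraicGeometry CategoryTheory CategoryTheory.Limits TensorProduct AlgebraicGeometry.RelPicard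
  NeronModelInfra GoodReductionJacobian

namespace Fermat.Agent.S25lib.Hub

open Fermat.Agent.S26lib

variable {k : Type u} [Field k] [IsAlgClosed k] {C : Scheme.{u}}
  (c : C ⟶ Spec (CommRingCat.of k)) [IsProper c] [SmoothOfRelativeDimension 1 c] [IsIntegral C]
  (ε : Prod.KPt c)

variable (T₀ : Curve.PointChart' c ε.pt) {γ : ℕ}

/-- **S25 from (A), (U) and `mem`** (for any atlas `T₀` and any `γ` with `UniformGenus c γ`) -/
theorem s25Statement_of_AU_mem (hγ : Polar.UniformGenus c γ)
    (hrecog : ∀ {T : Scheme.{u}} (hT : IsAffine T) (t : T ⟶ Spec (CommRingCat.of k)) (N : RLB c ε t),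
      KB T₀.toZChart t N.L →
      ∃ I : HPt c T₀.toPointChart γ t, RLB.Iso N (odi c ε T₀ hT t I))
    (hinj : ∀ {T : Scheme.{u}} (hT : IsAffine T) (t : T ⟶ Spec (CommRingCat.of k))
      (I I' : HPt c T₀.toPointChart γ t),
      KB T₀.toZChart t (odi c ε T₀ hT t I).L →
      RLB.Iso (odi c ε T₀ hT t I) (odi c ε T₀ hT t I') → I = I')
    (hmem : ∀ (i : EIdx c ε γ) (β : Fin γ → Γ(C, T₀.U₁)),
      InP (twistByList (invList i.E)
        (odi c ε T₀ (isAffine_hilbY c T₀.toPointChart β)
          (hilby c T₀.toPointChart β) (univPt c T₀.toPointChart β)))) :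
    S25Statement c ε :=
  s25Statement_of_remaining c ε T₀ hγ hrecog hinj
    (fun β _ hT t I h => Glue.classify β hT t I h)
    (fun β _ hT t g g' h => Glue.classify_inj β hT t g g' h)
    hmem (Abel.abelStatement_final c ε)

end Fermat.Agent.S25lib.Hub
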