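/-
S25lib / Hub / Top5  (helper7)  --  Project L (S25): S25 from (A) `hrecog` and (U) `hinj` only.
`mem` is helper8's `Curve.mem_odi`; the genus is helper9's `Polar.exists_genus_uniform`.
-/
import Fermat.Agent.S25lib.Hub.Top4
import Fermat.Agent.S25lib.Curve.MemFinal
import Fermat.Agent.S25lib.Polar.GenusC

set_option autoImplicit false

noncomputable section

universe u

open AlgebraicGeometry CategoryTheory CategoryTheory.Limits TensorProduct AlgebraicGeometry.RelPicard
  NeronModelInfra GoodReductionJacobian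

namespace Fermat.Agent.S25lib.Hub

open Fermat.Agent.S26lib

variable {k : Type u} [Field k] [IsAlgClosed k] {C : Scheme.{u}}
  (c : C ⟶ Spec (CommRingCat.of k)) [IsProper c] [SmoothOfRelativeDimension 1 c] [IsIntegral C]
  (ε : Prod.KPt c) (T₀ : Curve.PointChart' c ε.pt) {γ : ℕ}

/-- **S25 from (A) and (U)** -/
theorem s25Statement_of_AU (hγ : Polar.UniformGenus c γ)
    (hrecog : ∀ {T : Scheme.{u}} (hT : IsAffine T) (t : T ⟶ Spec (CommRingCat.of k)) (N : RLB c ε t),
      KB T₀.toZChart t N.L →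
      ∃ I : HPt c T₀.toPointChart γ t, RLB.Iso N (odi c ε T₀ hT t I))
    (hinj : ∀ {T : Scheme.{u}} (hT : IsAffine T) (t : T ⟶ Spec (CommRingCat.of k))
      (I I' : HPt c T₀.toPointChart γ t),
      KB T₀.toZChart t (odi c ε T₀ hT t I).L →
      RLB.Iso (odi c ε T₀ hT t I) (odi c ε T₀ hT t I') → I = I') :
    S25Statement c ε :=
  s25Statement_of_AU_mem c ε T₀ hγ hrecog hinj (fun i β => Curve.mem_odi c ε T₀ i β)

end Fermat.Agent.S25lib.Hub
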