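/-
S25lib / Hub / Top6  (helper7)  --  Project L (S25): the statement S25, unconditionally.
(A) `hrecog` and (U) `hinj` are helper3's `Krich.hrecog_of_uniformGenus`, `Krich.hinj_of_uniformGenus`.
-/
import Fermat.Agent.S25lib.Hub.Top5
import Fermat.Agent.S25lib.Krich.LayerFinal

set_option autoImplicit false

noncomputable section

universe u

open AlgebraicGeometry CategoryTheory CategoryTheory.Limits TensorProduct AlgebraicGeometry.RelPicard
  NeronModelInfra GoodReductionJacobian

namespace Fermat.Agent.S25lib.Hub

open Fermat.Agent.S26lib

variable {k : Type u} [Field k] [IsAlgClosed k] {C : Scheme.{u}}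
  (c : C ⟶ Spec (CommRingCat.of k)) [IsProper c] [SmoothOfRelativeDimension 1 c] [IsIntegral C]
  (ε : Prod.KPt c)

/-- **S25**: the rigidified Picard functor of a proper smooth integral curve with a rational point over an
algebraically closed field, cut out by algebraic equivalence to zero, is representable by a smooth proper
geometrically connected scheme -/
theorem s25Statement_final : S25Statement c ε := by
  obtain ⟨γ, -, hγ⟩ := Polar.exists_genus_uniform c
  exact s25Statement_of_AU c ε (atlas c ε) hγ
    (fun hT t N h => Krich.hrecog_of_uniformGenus c ε (atlas c ε) hγ hT t N h)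
    (fun hT t I I' h h' => Krich.hinj_of_uniformGenus c ε (atlas c ε) hγ hT t I I' h h')

end Fermat.Agent.S25lib.Hub
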